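import Mathlib
import Fermat.Agent.CFT.LocalBridge.Inertia
import Fermat.Agent.Lib.FrobeniusExists
import Fermat.Prelude.Def_GaloisRep_Residual

/-!
# PROJECT T (S56), block (a4), leaf (U1): tame inertia is cyclic

For a valuation subring `A` of `ℚ̄` over a prime `q` and a homomorphism `f` from `Gal(ℚ̄/ℚ)` to a
group, factoring through a finite level, such that the image of the inertia group `I_A` contains
no non-trivial element of `q`-power order: the image `f(I_A)` is cyclic.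

Proof: on a finite normal level `N` the value group is discrete (`exists_uniformizer`), the
character `σ ↦ σ π / π mod 𝔪` (`theta`) has values in the roots of unity of the residue field
(a cyclic group), and an inertia element in its kernel acts on `N` through a `q`-group
(`eq_of_wild`: the `(σ - 1)`-adic argument).
-/

set_option autoImplicit false

open scoped Pointwise

namespace Fermat.Agent.S56.Unip.TameCyclic

local notation "Qbar" => AlgebraicClosure ℚ
local notation "GQ" => (AlgebraicClosure ℚ ≃ₐ[ℚ] AlgebraicClosure ℚ)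

variable {q : ℕ} (A : ValuationSubring Qbar)

/-! ### Step A: rational numbers -/

theorem val_natCast_le_one (n : ℕ) : A.valuation (n : Qbar) ≤ 1 :=
  (A.valuation_le_one_iff _).mpr (natCast_mem A n)

theorem val_intCast_le_one (n : ℤ) : A.valuation (n : Qbar) ≤ 1 :=
  (A.valuation_le_one_iff _).mpr (intCast_mem A n)

theorem val_natCast_eq_one (hq : q.Prime) (hA : A.LiesOverPrime q) {n : ℕ} (hn : ¬ q ∣ n) :
    A.valuation (n : Qbar) = 1 := by
  refine le_antisymm (val_natCast_le_one A n) (not_lt.mp fun h => ?_)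
  have h1 : ((n : ℤ) : Qbar) ∉ A.nonunits :=
    Fermat.Agent.Lib.FrobeniusExists.intCast_not_mem_nonunits A hq hA
      (fun hd => hn (Int.natCast_dvd_natCast.mp hd))
  exact h1 (by rw [Int.cast_natCast]; exact A.mem_nonunits_iff.mpr h)

theorem val_q_lt_one (hA : A.LiesOverPrime q) : A.valuation (q : Qbar) < 1 :=
  A.mem_nonunits_iff.mp hA

theorem val_q_ne_zero (hq : q.Prime) : A.valuation (q : Qbar) ≠ 0 := by
  rw [Ne, map_eq_zero]
  exact_mod_cast hq.ne_zero

/-! ### Step B: the value group of a finite level is discrete -/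

theorem exists_val_natCast (hq : q.Prime) (hA : A.LiesOverPrime q) {n : ℕ} (hn : n ≠ 0) :
    ∃ k : ℕ, A.valuation (n : Qbar) = A.valuation (q : Qbar) ^ k := by
  obtain ⟨e, n', hn', rfl⟩ := Nat.exists_eq_pow_mul_and_not_dvd hn q hq.ne_one
  refine ⟨e, ?_⟩
  rw [Nat.cast_mul, Nat.cast_pow, map_mul, map_pow, val_natCast_eq_one A hq hA hn', mul_one]

theorem exists_val_ratCast (hq : q.Prime) (hA : A.LiesOverPrime q) {a : ℚ} (ha : a ≠ 0) :
    ∃ k : ℤ, A.valuation (algebraMap ℚ Qbar a) = A.valuation (q : Qbar) ^ k := by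
  have hnum : a.num.natAbs ≠ 0 := Int.natAbs_ne_zero.mpr (Rat.num_ne_zero.mpr ha)
  obtain ⟨k1, h1⟩ := exists_val_natCast A hq hA hnum
  obtain ⟨k2, h2⟩ := exists_val_natCast A hq hA a.den_ne_zero
  refine ⟨(k1 : ℤ) - k2, ?_⟩
  have hv0 := val_q_ne_zero A hq
  have ha' : algebraMap ℚ Qbar a = ((a.num : ℤ) : Qbar) / ((a.den : ℕ) : Qbar) := by
    conv_lhs => rw [← Rat.num_div_den a]
    rw [map_div₀, map_intCast, map_natCast]
  have habs : A.valuation ((a.num : ℤ) : Qbar) = A.valuation ((a.num.natAbs : ℕ) : Qbar) := by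
    rcases Int.natAbs_eq a.num with h | h
    · conv_lhs => rw [h]
      rw [Int.cast_natCast]
    · conv_lhs => rw [h]
      rw [Int.cast_neg, Int.cast_natCast, Valuation.map_neg]
  rw [ha', map_div₀, habs, h1, h2, zpow_sub₀ hv0, zpow_natCast, zpow_natCast]

theorem exists_pow_val_eq (hq : q.Prime) (hA : A.LiesOverPrime q) {x : Qbar} (hx : x ≠ 0) :
    ∃ j : ℕ, 0 < j ∧ j ≤ (minpoly ℚ x).natDegree ∧
      ∃ k : ℤ, A.valuation x ^ j = A.valuation (q : Qbar) ^ k := by
  classical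
  have hint : IsIntegral ℚ x := Algebra.IsIntegral.isIntegral x
  have hp0 : minpoly ℚ x ≠ 0 := minpoly.ne_zero hint
  have hsum : ∑ i ∈ (minpoly ℚ x).support,
      algebraMap ℚ Qbar ((minpoly ℚ x).coeff i) * x ^ i = 0 := by
    have := minpoly.aeval ℚ x
    rw [Polynomial.aeval_def, Polynomial.eval₂_eq_sum, Polynomial.sum_def] at this
    exact this
  have hv0 := val_q_ne_zero A hq
  have hvx : A.valuation x ≠ 0 := by rwa [Ne, map_eq_zero]
  have ht0 : ∀ i ∈ (minpoly ℚ x).support,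
      algebraMap ℚ Qbar ((minpoly ℚ x).coeff i) * x ^ i ≠ 0 := by
    intro i hi
    refine mul_ne_zero ?_ (pow_ne_zero _ hx)
    rw [Ne, map_eq_zero]
    exact Polynomial.mem_support_iff.mp hi
  have hex : ∃ i ∈ (minpoly ℚ x).support, ∃ j ∈ (minpoly ℚ x).support, i < j ∧
      A.valuation (algebraMap ℚ Qbar ((minpoly ℚ x).coeff i) * x ^ i) =
        A.valuation (algebraMap ℚ Qbar ((minpoly ℚ x).coeff j) * x ^ j) := by
    by_contra hcon
    push Not at hcon
    have hne : (minpoly ℚ x).support.Nonempty := Polynomial.support_nonempty.mpr hp0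
    obtain ⟨i0, hi0, hmax⟩ := Finset.exists_max_image (minpoly ℚ x).support
      (fun i => A.valuation (algebraMap ℚ Qbar ((minpoly ℚ x).coeff i) * x ^ i)) hne
    have h1 : A.valuation (∑ i ∈ (minpoly ℚ x).support,
        algebraMap ℚ Qbar ((minpoly ℚ x).coeff i) * x ^ i) =
        A.valuation (algebraMap ℚ Qbar ((minpoly ℚ x).coeff i0) * x ^ i0) := by
      refine Valuation.map_sum_eq_of_lt _ hi0 (fun i hi => ?_)
      rw [Finset.mem_sdiff, Finset.mem_singleton] at hi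
      refine lt_of_le_of_ne (hmax i hi.1) ?_
      rcases lt_or_gt_of_ne hi.2 with h | h
      · exact hcon i hi.1 i0 hi0 h
      · exact (hcon i0 hi0 i hi.1 h).symm
    rw [hsum, map_zero] at h1
    exact ht0 i0 hi0 ((map_eq_zero _).mp h1.symm)
  obtain ⟨i, hi, j, hj, hij, heq⟩ := hex
  obtain ⟨ki, hki⟩ := exists_val_ratCast A hq hA (Polynomial.mem_support_iff.mp hi)
  obtain ⟨kj, hkj⟩ := exists_val_ratCast A hq hA (Polynomial.mem_support_iff.mp hj)
  refine ⟨j - i, Nat.sub_pos_of_lt hij,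
    (Nat.sub_le _ _).trans (Polynomial.le_natDegree_of_mem_supp j hj), ki - kj, ?_⟩
  rw [map_mul, map_mul, map_pow, map_pow, hki, hkj] at heq
  have hj' : A.valuation x ^ j = A.valuation x ^ (j - i) * A.valuation x ^ i := by
    rw [← pow_add, Nat.sub_add_cancel hij.le]
  rw [hj', ← mul_assoc] at heq
  have h2 := mul_right_cancel₀ (pow_ne_zero i hvx) heq
  rw [zpow_sub₀ hv0, h2, mul_comm, mul_div_assoc, div_self (zpow_ne_zero _ hv0), mul_one]

theorem val_pow_eq_one {x : Qbar} {e : ℕ} (he : e ≠ 0) (h : A.valuation x ^ e = 1) :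
    A.valuation x = 1 :=
  (pow_eq_one_iff_of_nonneg zero_le he).mp h

/-- a uniform exponent for the value group of a finite level -/
theorem exists_pow_factorial_val_eq (hq : q.Prime) (hA : A.LiesOverPrime q)
    (N : IntermediateField ℚ Qbar) [FiniteDimensional ℚ N] {x : Qbar} (hxN : x ∈ N) (hx : x ≠ 0) :
    ∃ k : ℤ, A.valuation x ^ (Module.finrank ℚ N).factorial = A.valuation (q : Qbar) ^ k := by
  obtain ⟨j, hj0, hjd, k, hk⟩ := exists_pow_val_eq A hq hA hx
  have hdeg : (minpoly ℚ x).natDegree ≤ Module.finrank ℚ N := by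
    have h1 := minpoly.natDegree_le (A := ℚ) (⟨x, hxN⟩ : N)
    have h2 : minpoly ℚ (⟨x, hxN⟩ : N) = minpoly ℚ x :=
      (minpoly.algebraMap_eq (algebraMap N Qbar).injective (⟨x, hxN⟩ : N)).symm
    rwa [h2] at h1
  obtain ⟨c, hc⟩ := Nat.dvd_factorial hj0 (hjd.trans hdeg)
  refine ⟨k * c, ?_⟩
  rw [hc, pow_mul, hk, zpow_mul, zpow_natCast]

/-- **discreteness**: a finite level has a uniformizer -/
theorem exists_uniformizer (hq : q.Prime) (hA : A.LiesOverPrime q)
    (N : IntermediateField ℚ Qbar) [FiniteDimensional ℚ N] :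
    ∃ π ∈ N, π ≠ 0 ∧ ∀ x ∈ N, x ≠ 0 → ∃ m : ℤ, A.valuation x = A.valuation π ^ m := by
  classical
  set e := (Module.finrank ℚ N).factorial with he
  have he0 : e ≠ 0 := Nat.factorial_ne_zero _
  have hv0 := val_q_ne_zero A hq
  have hv1 := val_q_lt_one A hA
  -- the positive exponents that occur
  let P : ℕ → Prop := fun k => 0 < k ∧ ∃ x ∈ N, x ≠ 0 ∧
    A.valuation x ^ e = A.valuation (q : Qbar) ^ k
  have hqN : (q : Qbar) ∈ N := natCast_mem N q
  have hq0 : (q : Qbar) ≠ 0 := by exact_mod_cast hq.ne_zero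
  have hP : ∃ k, P k := ⟨e, Nat.pos_of_ne_zero he0, q, hqN, hq0, rfl⟩
  obtain ⟨hg0, π, hπN, hπ0, hπ⟩ := Nat.find_spec hP
  have hvπ : A.valuation π ≠ 0 := by rwa [Ne, map_eq_zero]
  refine ⟨π, hπN, hπ0, fun x hxN hx => ?_⟩
  obtain ⟨k, hk⟩ := exists_pow_factorial_val_eq A hq hA N hxN hx
  set g := Nat.find hP with hg
  have hgpos : (0 : ℤ) < g := by exact_mod_cast hg0
  refine ⟨k / g, ?_⟩
  -- y := x / π ^ (k / g) has exponent k % g
  set y := x / π ^ (k / (g : ℤ)) with hy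
  have hyN : y ∈ N := div_mem hxN (zpow_mem hπN _)
  have hy0 : y ≠ 0 := div_ne_zero hx (zpow_ne_zero _ hπ0)
  have hyk : A.valuation y ^ e = A.valuation (q : Qbar) ^ (k % (g : ℤ)) := by
    rw [hy, map_div₀, map_zpow₀, div_pow, hk, ← zpow_natCast (A.valuation π ^ (k / (g : ℤ))) e,
      ← zpow_mul, mul_comm, zpow_mul, zpow_natCast, hπ, ← zpow_natCast (A.valuation (q : Qbar)) g,
      ← zpow_mul, ← zpow_sub₀ hv0]
    congr 1
    rw [Int.emod_def]
  have hr0 : 0 ≤ k % (g : ℤ) := Int.emod_nonneg _ hgpos.ne'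
  have hrg : k % (g : ℤ) < g := Int.emod_lt_of_pos _ hgpos
  have hr : k % (g : ℤ) = 0 := by
    by_contra hne
    have hpos : 0 < k % (g : ℤ) := lt_of_le_of_ne hr0 (Ne.symm hne)
    have hPr : P (k % (g : ℤ)).toNat := by
      refine ⟨by omega, y, hyN, hy0, ?_⟩
      rw [hyk, ← zpow_natCast, Int.toNat_of_nonneg hr0]
    have := Nat.find_min hP (m := (k % (g : ℤ)).toNat) (by omega)
    exact this hPr
  rw [hr, zpow_zero] at hyk
  have h1 := val_pow_eq_one A he0 hyk
  rw [hy, map_div₀, map_zpow₀] at h1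
  exact (div_eq_one_iff_eq (zpow_ne_zero _ hvπ)).mp h1

/-! ### Step C: inertia elements -/

section Inertia

variable {A}

theorem inertia_smul {σ : GQ} (hσ : σ ∈ A.inertiaSubgroupIn ℚ) : σ • A = A :=
  ((Fermat.Agent.CFT.LocalBridge.mem_inertiaSubgroupIn_iff A σ).mp hσ).1

theorem inertia_sub_mem {σ : GQ} (hσ : σ ∈ A.inertiaSubgroupIn ℚ) {x : Qbar} (hx : x ∈ A) :
    σ x - x ∈ A.nonunits :=
  ((Fermat.Agent.CFT.LocalBridge.mem_inertiaSubgroupIn_iff A σ).mp hσ).2 x hx

theorem inertia_map_mem {σ : GQ} (hσ : σ ∈ A.inertiaSubgroupIn ℚ) {x : Qbar} (hx : x ∈ A) :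
    σ x ∈ A := by
  have h := ValuationSubring.smul_mem_pointwise_smul σ x A hx
  rwa [inertia_smul hσ] at h

theorem inertia_val_unit {σ : GQ} (hσ : σ ∈ A.inertiaSubgroupIn ℚ) {u : Qbar}
    (hu : A.valuation u = 1) : A.valuation (σ u) = 1 := by
  have hu0 : u ≠ 0 := by
    rintro rfl
    rw [map_zero] at hu
    exact zero_ne_one hu
  have h1 : σ u ∈ A := inertia_map_mem hσ ((A.valuation_le_one_iff _).mp hu.le)
  have h2 : σ u⁻¹ ∈ A := inertia_map_mem hσ
    ((A.valuation_le_one_iff _).mp (by rw [map_inv₀, hu, inv_one]))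
  rw [map_inv₀] at h2
  have h3 := (A.valuation_le_one_iff _).mpr h1
  have h4 := (A.valuation_le_one_iff _).mpr h2
  rw [map_inv₀] at h4
  have h5 : A.valuation (σ u) ≠ 0 := by
    rw [Ne, map_eq_zero]
    exact (map_ne_zero σ).mpr hu0
  exact le_antisymm h3 ((inv_le_one₀ (zero_lt_iff.mpr h5)).mp h4)

/-- inertia elements preserve the valuation -/
theorem inertia_val_eq (hq : q.Prime) (hA : A.LiesOverPrime q) {σ : GQ}
    (hσ : σ ∈ A.inertiaSubgroupIn ℚ) (x : Qbar) : A.valuation (σ x) = A.valuation x := by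
  rcases eq_or_ne x 0 with rfl | hx
  · rw [map_zero]
  obtain ⟨j, hj0, -, k, hk⟩ := exists_pow_val_eq A hq hA hx
  have hq0 : (q : Qbar) ≠ 0 := by exact_mod_cast hq.ne_zero
  have hv0 := val_q_ne_zero A hq
  have hu : A.valuation (x ^ j / (q : Qbar) ^ k) = 1 := by
    rw [map_div₀, map_pow, map_zpow₀, hk, div_self (zpow_ne_zero _ hv0)]
  have h1 := inertia_val_unit hσ hu
  rw [map_div₀, map_pow, map_zpow₀, map_natCast, map_div₀, map_pow, map_zpow₀,
    div_eq_one_iff_eq (zpow_ne_zero _ hv0), ← hk] at h1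
  exact (pow_left_inj₀ zero_le zero_le hj0.ne').mp h1

variable (A) in
/-- one-units of `A` -/
def IsOneUnit (z : Qbar) : Prop := A.valuation (z - 1) < 1

theorem IsOneUnit.val_eq_one {z : Qbar} (h : IsOneUnit A z) : A.valuation z = 1 := by
  have h1 : z = (z - 1) + 1 := by ring
  rw [h1, Valuation.map_add_eq_of_lt_right _ (by rwa [map_one]), map_one]

theorem IsOneUnit.ne_zero {z : Qbar} (h : IsOneUnit A z) : z ≠ 0 := by
  rintro rfl
  have := h.val_eq_one
  rw [map_zero] at this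
  exact zero_ne_one this

theorem isOneUnit_one : IsOneUnit A 1 := by
  unfold IsOneUnit
  rw [sub_self, map_zero]
  exact zero_lt_one

theorem IsOneUnit.mul {z w : Qbar} (hz : IsOneUnit A z) (hw : IsOneUnit A w) :
    IsOneUnit A (z * w) := by
  unfold IsOneUnit
  have h1 : z * w - 1 = (z - 1) * w + (w - 1) := by ring
  rw [h1]
  refine Valuation.map_add_lt _ ?_ hw
  rw [map_mul, hw.val_eq_one, mul_one]
  exact hz

theorem IsOneUnit.inv {z : Qbar} (hz : IsOneUnit A z) : IsOneUnit A z⁻¹ := by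
  unfold IsOneUnit
  have hz0 := hz.ne_zero
  have h1 : z⁻¹ - 1 = -((z - 1) * z⁻¹) := by
    field_simp
    ring
  rw [h1, Valuation.map_neg, map_mul, map_inv₀, hz.val_eq_one, inv_one, mul_one]
  exact hz

theorem IsOneUnit.pow {z : Qbar} (hz : IsOneUnit A z) (n : ℕ) : IsOneUnit A (z ^ n) := by
  induction n with
  | zero => rw [pow_zero]; exact isOneUnit_one
  | succ n ih => rw [pow_succ]; exact ih.mul hz

theorem IsOneUnit.zpow {z : Qbar} (hz : IsOneUnit A z) (m : ℤ) : IsOneUnit A (z ^ m) := by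
  cases m with
  | ofNat n => rw [Int.ofNat_eq_natCast, zpow_natCast]; exact hz.pow n
  | negSucc n => rw [zpow_negSucc]; exact (hz.pow _).inv

theorem IsOneUnit.val_sub_lt {x y : Qbar} (h : IsOneUnit A (y / x)) (hx : x ≠ 0) :
    A.valuation (y - x) < A.valuation x := by
  have h1 : y - x = x * (y / x - 1) := by
    field_simp
  have hvx : A.valuation x ≠ 0 := by rwa [Ne, map_eq_zero]
  rw [h1, map_mul]
  calc A.valuation x * A.valuation (y / x - 1) < A.valuation x * 1 :=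
        mul_lt_mul_of_pos_left h (zero_lt_iff.mpr hvx)
    _ = A.valuation x := mul_one _

theorem inertia_isOneUnit_of_unit {σ : GQ} (hσ : σ ∈ A.inertiaSubgroupIn ℚ) {u : Qbar}
    (hu : A.valuation u = 1) : IsOneUnit A (σ u / u) := by
  unfold IsOneUnit
  have hu0 : u ≠ 0 := by
    rintro rfl
    rw [map_zero] at hu
    exact zero_ne_one hu
  have h1 : σ u / u - 1 = (σ u - u) / u := by
    field_simp
  rw [h1, map_div₀, hu, div_one]
  exact A.mem_nonunits_iff.mp (inertia_sub_mem hσ ((A.valuation_le_one_iff _).mp hu.le))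

/-- an inertia element that is wild on the uniformizer is wild on the whole level -/
theorem isOneUnit_of_uniformizer {N : IntermediateField ℚ Qbar} {π : Qbar} (hπ0 : π ≠ 0)
    (hπ : ∀ x ∈ N, x ≠ 0 → ∃ m : ℤ, A.valuation x = A.valuation π ^ m)
    {σ : GQ} (hσ : σ ∈ A.inertiaSubgroupIn ℚ) (hw : IsOneUnit A (σ π / π))
    {x : Qbar} (hxN : x ∈ N) (hx : x ≠ 0) : IsOneUnit A (σ x / x) := by
  obtain ⟨m, hm⟩ := hπ x hxN hx
  have hvπ : A.valuation π ≠ 0 := by rwa [Ne, map_eq_zero]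
  have hu : A.valuation (x / π ^ m) = 1 := by
    rw [map_div₀, map_zpow₀, hm, div_self (zpow_ne_zero _ hvπ)]
  have h1 := inertia_isOneUnit_of_unit hσ hu
  have h2 := hw.zpow m
  have h3 : σ x / x = σ (x / π ^ m) / (x / π ^ m) * (σ π / π) ^ m := by
    rw [map_div₀, map_zpow₀, div_zpow]
    have hσπ : σ π ≠ 0 := (map_ne_zero σ).mpr hπ0
    field_simp
  rw [h3]
  exact h1.mul h2

end Inertia

/-! ### Step C': the `(τ - 1)`-adic argument -/

theorem map_mem_of_normal (N : IntermediateField ℚ Qbar) [Normal ℚ N] (τ : GQ) {y : Qbar}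
    (hy : y ∈ N) : τ y ∈ N :=
  (IntermediateField.normal_iff_forall_map_le' (K := N)).mp ‹_› τ
    ((IntermediateField.mem_map N).mpr ⟨y, hy, rfl⟩)

/-- an automorphism that moves every element of the normal level `N` by something of strictly
smaller valuation, and has order prime to `q` on `N`, is trivial on `N` -/
theorem eq_of_wild (hq : q.Prime) (hA : A.LiesOverPrime q) (N : IntermediateField ℚ Qbar)
    [Normal ℚ N] {τ : GQ}
    (hw : ∀ x ∈ N, x ≠ 0 → A.valuation (τ x - x) < A.valuation x)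
    {n : ℕ} (hn : ¬ q ∣ n) (hfix : ∀ x ∈ N, (τ ^ n) x = x) : ∀ x ∈ N, τ x = x := by
  intro x hxN
  by_contra hne
  set T : Module.End ℚ Qbar := τ.toLinearMap with hT
  set δ : Module.End ℚ Qbar := T - 1 with hδ
  have hTn : ∀ m : ℕ, ∀ y : Qbar, (T ^ m) y = (τ ^ m) y := by
    intro m
    induction m with
    | zero => intro y; simp
    | succ m ih =>
      intro y
      rw [pow_succ', Module.End.mul_apply, ih, pow_succ', AlgEquiv.mul_apply]
      rfl
  have hδa : ∀ y : Qbar, δ y = τ y - y := fun y => by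
    rw [hδ, LinearMap.sub_apply, Module.End.one_apply]
    rfl
  have hδN : ∀ m : ℕ, (δ ^ m) x ∈ N := by
    intro m
    induction m with
    | zero => simpa using hxN
    | succ m ih =>
      rw [pow_succ', Module.End.mul_apply, hδa]
      exact sub_mem (map_mem_of_normal N τ ih) ih
  have hd1 : (δ ^ 1) x ≠ 0 := by
    rw [pow_one, hδa]
    exact sub_ne_zero.mpr hne
  have hv1 : A.valuation ((δ ^ 1) x) ≠ 0 := by rwa [Ne, map_eq_zero]
  -- the valuations of the iterated differences decrease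
  have hstep : ∀ m : ℕ, (δ ^ m) x ≠ 0 →
      A.valuation ((δ ^ (m + 1)) x) < A.valuation ((δ ^ m) x) := by
    intro m hm
    rw [pow_succ', Module.End.mul_apply, hδa]
    exact hw _ (hδN m) hm
  have hzero : ∀ m : ℕ, (δ ^ m) x = 0 → (δ ^ (m + 1)) x = 0 := by
    intro m hm
    rw [pow_succ', Module.End.mul_apply, hm, map_zero]
  have hlt : ∀ m : ℕ, A.valuation ((δ ^ (m + 2)) x) < A.valuation ((δ ^ 1) x) := by
    intro m
    induction m with
    | zero => exact hstep 1 hd1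
    | succ m ih =>
      rcases eq_or_ne ((δ ^ (m + 2)) x) 0 with h0 | h0
      · rw [show m + 1 + 2 = (m + 2) + 1 by ring, hzero _ h0, map_zero]
        exact zero_lt_iff.mpr hv1
      · exact (hstep _ h0).trans ih
  -- binomial expansion of `T ^ n = (δ + 1) ^ n`
  have hn0 : n ≠ 0 := by
    rintro rfl
    exact hn (dvd_zero q)
  obtain ⟨n', rfl⟩ := Nat.exists_eq_succ_of_ne_zero hn0
  have hexp : T ^ (n' + 1) = ∑ m ∈ Finset.range (n' + 1 + 1),
      δ ^ m * 1 ^ (n' + 1 - m) * ((n' + 1).choose m : Module.End ℚ Qbar) := by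
    have h1 : T = δ + 1 := by rw [hδ]; abel
    rw [h1]
    exact (Commute.one_right δ).add_pow (n' + 1)
  have hx : (T ^ (n' + 1)) x = x := by rw [hTn]; exact hfix x hxN
  rw [hexp, LinearMap.sum_apply, Finset.sum_range_succ', Finset.sum_range_succ'] at hx
  simp only [one_pow, mul_one, Module.End.mul_apply, Module.End.natCast_apply, pow_zero,
    Nat.choose_zero_right, one_smul, Module.End.one_apply, zero_add, Nat.choose_one_right,
    map_nsmul] at hx
  -- hx : rest + (n'+1) • δ x + x = x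
  have hsum : (∑ m ∈ Finset.range n', ((n' + 1).choose (m + 1 + 1)) • (δ ^ (m + 1 + 1)) x) +
      (n' + 1) • (δ ^ 1) x = 0 := by
    exact add_right_cancel (by rw [zero_add]; exact hx)
  have hrest : A.valuation (∑ m ∈ Finset.range n',
      ((n' + 1).choose (m + 1 + 1)) • (δ ^ (m + 1 + 1)) x) < A.valuation ((δ ^ 1) x) := by
    refine Valuation.map_sum_lt _ hv1 (fun m _ => ?_)
    rw [nsmul_eq_mul, map_mul]
    calc A.valuation (((n' + 1).choose (m + 1 + 1) : ℕ) : Qbar) * A.valuation ((δ ^ (m + 1 + 1)) x)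
        ≤ 1 * A.valuation ((δ ^ (m + 1 + 1)) x) :=
          mul_le_mul' (val_natCast_le_one A _) le_rfl
      _ = A.valuation ((δ ^ (m + 2)) x) := by rw [one_mul]
      _ < _ := hlt m
  have hmain : A.valuation ((n' + 1) • (δ ^ 1) x) = A.valuation ((δ ^ 1) x) := by
    rw [nsmul_eq_mul, map_mul, val_natCast_eq_one A hq hA hn, one_mul]
  have := Valuation.map_add_eq_of_lt_right A.valuation (hmain.symm ▸ hrest)
  rw [hsum, map_zero, hmain] at this
  exact hv1 this.symm

/-! ### Step D: the tame character -/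

section Theta

variable {A}

theorem quot_mem (hq : q.Prime) (hA : A.LiesOverPrime q) (π : Qbar)
    (σ : ↥(A.inertiaSubgroupIn ℚ)) : A.valuation ((σ : GQ) π / π) ≤ 1 := by
  rcases eq_or_ne π 0 with rfl | hπ0
  · rw [div_zero, map_zero]
    exact zero_le_one
  have hvπ : A.valuation π ≠ 0 := by rwa [Ne, map_eq_zero]
  rw [map_div₀, inertia_val_eq hq hA σ.2, div_self hvπ]

theorem quot_val (hq : q.Prime) (hA : A.LiesOverPrime q) {π : Qbar} (hπ0 : π ≠ 0)
    (σ : ↥(A.inertiaSubgroupIn ℚ)) : A.valuation ((σ : GQ) π / π) = 1 := by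
  have hvπ : A.valuation π ≠ 0 := by rwa [Ne, map_eq_zero]
  rw [map_div₀, inertia_val_eq hq hA σ.2, div_self hvπ]

/-- `σ π / π` as an element of `A` -/
noncomputable def quot (hq : q.Prime) (hA : A.LiesOverPrime q) (π : Qbar) (σ : ↥(A.inertiaSubgroupIn ℚ)) : A :=
  ⟨(σ : GQ) π / π, (A.valuation_le_one_iff _).mp (quot_mem hq hA π σ)⟩

theorem residue_eq_iff (a b : A) :
    IsLocalRing.residue A a = IsLocalRing.residue A b ↔ A.valuation ((a : Qbar) - b) < 1 := by
  rw [← sub_eq_zero, ← map_sub, IsLocalRing.residue_eq_zero_iff,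
    ← ValuationSubring.coe_mem_nonunits_iff, A.mem_nonunits_iff]
  rfl

theorem residue_quot_ne_zero (hq : q.Prime) (hA : A.LiesOverPrime q) {π : Qbar} (hπ0 : π ≠ 0)
    (σ : ↥(A.inertiaSubgroupIn ℚ)) : IsLocalRing.residue A (quot hq hA π σ) ≠ 0 := by
  rw [IsLocalRing.residue_ne_zero_iff_isUnit, A.valuation_eq_one_iff]
  exact quot_val hq hA hπ0 σ

theorem residue_quot_mul (hq : q.Prime) (hA : A.LiesOverPrime q) {π : Qbar} (hπ0 : π ≠ 0)
    (σ τ : ↥(A.inertiaSubgroupIn ℚ)) :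
    IsLocalRing.residue A (quot hq hA π (σ * τ)) =
      IsLocalRing.residue A (quot hq hA π σ) * IsLocalRing.residue A (quot hq hA π τ) := by
  rw [← map_mul, residue_eq_iff]
  have hσπ : (σ : GQ) π ≠ 0 := (map_ne_zero (σ : GQ)).mpr hπ0
  -- (στ)π/π - (σπ/π)(τπ/π) = (σπ/π) (σ(τπ/π) - τπ/π)
  have h1 : (((quot hq hA π (σ * τ) : A) : Qbar) -
      ((quot hq hA π σ * quot hq hA π τ : A) : Qbar)) =
      ((σ : GQ) π / π) * ((σ : GQ) ((τ : GQ) π / π) - (τ : GQ) π / π) := by
    show ((σ * τ : ↥(A.inertiaSubgroupIn ℚ)) : GQ) π / π -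
      ((σ : GQ) π / π) * ((τ : GQ) π / π) = _
    rw [Subgroup.coe_mul, AlgEquiv.mul_apply, map_div₀]
    field_simp
  rw [h1, map_mul, quot_val hq hA hπ0 σ, one_mul]
  exact A.mem_nonunits_iff.mp (inertia_sub_mem σ.2
    ((A.valuation_le_one_iff _).mp (quot_mem hq hA π τ)))

/-- the tame character attached to `π` -/
noncomputable def theta (hq : q.Prime) (hA : A.LiesOverPrime q) {π : Qbar} (hπ0 : π ≠ 0) :
    ↥(A.inertiaSubgroupIn ℚ) →* (IsLocalRing.ResidueField A)ˣ :=
  MonoidHom.mk' (fun σ => Units.mk0 (IsLocalRing.residue A (quot hq hA π σ))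
    (residue_quot_ne_zero hq hA hπ0 σ)) (fun σ τ => by
      apply Units.ext
      rw [Units.val_mul, Units.val_mk0, Units.val_mk0, Units.val_mk0]
      exact residue_quot_mul hq hA hπ0 σ τ)

theorem theta_eq_one_iff (hq : q.Prime) (hA : A.LiesOverPrime q) {π : Qbar} (hπ0 : π ≠ 0)
    (σ : ↥(A.inertiaSubgroupIn ℚ)) :
    theta hq hA hπ0 σ = 1 ↔ IsOneUnit A ((σ : GQ) π / π) := by
  rw [← Units.val_inj, Units.val_one]
  show IsLocalRing.residue A (quot hq hA π σ) = 1 ↔ _
  rw [← map_one (IsLocalRing.residue A), residue_eq_iff]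
  rfl

theorem fixes_of_restrictNormalHom_eq_one (N : IntermediateField ℚ Qbar) [Normal ℚ N] {g : GQ}
    (hg : AlgEquiv.restrictNormalHom N g = 1) {x : Qbar} (hx : x ∈ N) : g x = x := by
  have h := AlgEquiv.restrictNormal_commutes g N ⟨x, hx⟩
  have h1 : g.restrictNormal N = 1 := hg
  rw [h1] at h
  exact h.symm

/-- an inertia element in the kernel of the tame character acts on the level `N` through a
`q`-group -/
theorem exists_pow_fixes_of_theta_eq_one (hq : q.Prime) (hA : A.LiesOverPrime q)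
    (N : IntermediateField ℚ Qbar) [FiniteDimensional ℚ N] [Normal ℚ N] {π : Qbar}
    (hπ0 : π ≠ 0)
    (hπ : ∀ x ∈ N, x ≠ 0 → ∃ m : ℤ, A.valuation x = A.valuation π ^ m)
    (ρ : ↥(A.inertiaSubgroupIn ℚ)) (hρ : theta hq hA hπ0 ρ = 1) :
    ∃ a : ℕ, ∀ x ∈ N, ((ρ : GQ) ^ (q ^ a)) x = x := by
  set r := AlgEquiv.restrictNormalHom N (ρ : GQ) with hr
  have hn0 : orderOf r ≠ 0 := (orderOf_pos r).ne'
  obtain ⟨a, n', hn', hn⟩ := Nat.exists_eq_pow_mul_and_not_dvd hn0 q hq.ne_one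
  refine ⟨a, ?_⟩
  -- τ := ρ ^ (q ^ a) is still in the kernel of theta
  have hτθ : theta hq hA hπ0 (ρ ^ (q ^ a)) = 1 := by rw [map_pow, hρ, one_pow]
  have hτ : ((ρ ^ (q ^ a) : ↥(A.inertiaSubgroupIn ℚ)) : GQ) = (ρ : GQ) ^ (q ^ a) :=
    Subgroup.coe_pow _ _ _
  have hw : ∀ x ∈ N, x ≠ 0 →
      A.valuation (((ρ : GQ) ^ (q ^ a)) x - x) < A.valuation x := by
    intro x hxN hx
    have h1 := (theta_eq_one_iff hq hA hπ0 _).mp hτθ
    have h2 := isOneUnit_of_uniformizer hπ0 hπ (ρ ^ (q ^ a)).2 h1 hxN hx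
    rw [hτ] at h2
    exact h2.val_sub_lt hx
  have hfix : ∀ x ∈ N, (((ρ : GQ) ^ (q ^ a)) ^ n') x = x := by
    intro x hxN
    rw [← pow_mul, ← hn]
    refine fixes_of_restrictNormalHom_eq_one N ?_ hxN
    rw [map_pow, ← hr, pow_orderOf_eq_one]
  exact eq_of_wild A hq hA N hw hn' hfix

end Theta

/-! ### The theorem -/

/-- **Tame inertia is cyclic.** If `f` factors through a finite level and the image of the
inertia group of `A` (over `q`) contains no non-trivial element of `q`-power order, then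
the image is generated by one element. -/
theorem exists_generator_map_inertia (hq : q.Prime) (A : ValuationSubring Qbar)
    (hA : A.LiesOverPrime q) {G : Type} [Group G] (f : GQ →* G)
    (hf : GaloisFactorsThroughFiniteLevel f)
    (hcop : ∀ σ ∈ A.inertiaSubgroupIn ℚ, ∀ a : ℕ, f σ ^ (q ^ a) = 1 → f σ = 1) :
    ∃ τ ∈ A.inertiaSubgroupIn ℚ, ∀ σ ∈ A.inertiaSubgroupIn ℚ, ∃ m : ℤ, f σ = f τ ^ m := by
  obtain ⟨L0, hL0, hfL0⟩ := hf
  -- a finite normal level
  let N : IntermediateField ℚ Qbar := IntermediateField.normalClosure ℚ L0 Qbar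
  have : FiniteDimensional ℚ N := normalClosure.is_finiteDimensional ℚ L0 Qbar
  have : Normal ℚ N := normalClosure.normal ℚ L0 Qbar
  have hL0N : L0 ≤ N := IntermediateField.le_normalClosure L0
  obtain ⟨π, hπN, hπ0, hπ⟩ := exists_uniformizer A hq hA N
  -- the kernel of theta is killed by f
  have hker : ∀ ρ : ↥(A.inertiaSubgroupIn ℚ), theta hq hA hπ0 ρ = 1 → f (ρ : GQ) = 1 := by
    intro ρ hρ
    obtain ⟨a, ha⟩ := exists_pow_fixes_of_theta_eq_one hq hA N hπ0 hπ ρ hρ
    refine hcop ρ ρ.2 a ?_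
    rw [← map_pow]
    exact hfL0 _ (fun x hx => ha x (hL0N hx))
  -- theta has values in the roots of unity of order `n`
  set n := Nat.card (N ≃ₐ[ℚ] N) with hn
  have : NeZero n := ⟨Nat.card_pos.ne'⟩
  have hroot : ∀ σ : ↥(A.inertiaSubgroupIn ℚ),
      theta hq hA hπ0 σ ∈ rootsOfUnity n (IsLocalRing.ResidueField A) := by
    intro σ
    rw [mem_rootsOfUnity, ← map_pow, theta_eq_one_iff]
    have h1 : ((σ ^ n : ↥(A.inertiaSubgroupIn ℚ)) : GQ) π = π := by
      rw [Subgroup.coe_pow]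
      refine fixes_of_restrictNormalHom_eq_one N ?_ hπN
      rw [map_pow, hn, pow_card_eq_one']
    rw [h1, div_self hπ0]
    exact isOneUnit_one
  let θ' : ↥(A.inertiaSubgroupIn ℚ) →* rootsOfUnity n (IsLocalRing.ResidueField A) :=
    (theta hq hA hπ0).codRestrict _ hroot
  obtain ⟨⟨g, σ0, rfl⟩, hg⟩ := IsCyclic.exists_generator (α := θ'.range)
  refine ⟨σ0, σ0.2, fun σ hσ => ?_⟩
  obtain ⟨m, hm⟩ := Subgroup.mem_zpowers_iff.mp (hg ⟨θ' ⟨σ, hσ⟩, ⟨σ, hσ⟩, rfl⟩)
  refine ⟨m, ?_⟩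
  have h1 : θ' σ0 ^ m = θ' ⟨σ, hσ⟩ := by
    have := congrArg Subtype.val hm
    simpa using this
  have h2 : theta hq hA hπ0 (⟨σ, hσ⟩ * σ0 ^ (-m)) = 1 := by
    have h3 : θ' (⟨σ, hσ⟩ * σ0 ^ (-m)) = 1 := by
      rw [map_mul, map_zpow, ← h1, zpow_neg, mul_inv_cancel]
    have := congrArg Subtype.val h3
    simpa [θ'] using this
  have h4 := hker _ h2
  rw [Subgroup.coe_mul, Subgroup.coe_zpow, map_mul, map_zpow, zpow_neg, mul_inv_eq_one] at h4
  exact h4

/-- the form consumed by (a4): image of exponent `p ≠ q` -/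
theorem exists_generator_of_exponent (hq : q.Prime) (A : ValuationSubring Qbar)
    (hA : A.LiesOverPrime q) {p : ℕ} (hp : p.Prime) (hpq : p ≠ q) {G : Type} [Group G]
    (f : GQ →* G) (hf : GaloisFactorsThroughFiniteLevel f)
    (hexp : ∀ σ ∈ A.inertiaSubgroupIn ℚ, f σ ^ p = 1) :
    ∃ τ ∈ A.inertiaSubgroupIn ℚ, ∀ σ ∈ A.inertiaSubgroupIn ℚ, ∃ m : ℕ, f σ = f τ ^ m := by
  obtain ⟨τ, hτ, h⟩ := exists_generator_map_inertia hq A hA f hf (fun σ hσ a ha => by
    have hcop : Nat.Coprime (q ^ a) p :=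
      Nat.Coprime.pow_left a ((Nat.coprime_primes hq hp).mpr hpq.symm)
    have h1 : orderOf (f σ) ∣ Nat.gcd (q ^ a) p :=
      Nat.dvd_gcd (orderOf_dvd_of_pow_eq_one ha) (orderOf_dvd_of_pow_eq_one (hexp σ hσ))
    rw [hcop, Nat.dvd_one, orderOf_eq_one_iff] at h1
    exact h1)
  refine ⟨τ, hτ, fun σ hσ => ?_⟩
  obtain ⟨m, hm⟩ := h σ hσ
  refine ⟨(m % p).toNat, ?_⟩
  have hp0 : (p : ℤ) ≠ 0 := by exact_mod_cast hp.ne_zero
  have h1 : f τ ^ m = f τ ^ (m % (p : ℤ)) := by
    conv_lhs => rw [← Int.emod_add_mul_ediv m p]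
    rw [zpow_add, zpow_mul, zpow_natCast, hexp τ hτ, one_zpow, mul_one]
  rw [hm, h1, ← zpow_natCast, Int.toNat_of_nonneg (Int.emod_nonneg _ hp0)]

end Fermat.Agent.S56.Unip.TameCyclic
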