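import Mathlib

/-!
# PROJECT T (S56), block (a4), leaf [U-A]: 2×2 linear algebra of unipotent lifts

* `sub_one_mul_self` : `u` with `det u = 1`, `tr u = 2` satisfies `(u - 1)² = 0` (any commutative
  ring); `pow_eq_one_of_charpoly` : charpoly `(X - 1)²` and `p = 0` in the ring give `uᵖ = 1`;
* `exists_trace_zero_conj` : for such `u ≠ 1` over a field of characteristic `≠ 2`, every
  trace-free `C` with `tr (C u) = 0` is of the form `u X u⁻¹ - X` with `X` trace-free
  (`(Ad u - 1) ad⁰ = (u - 1)^⊥`);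
* `trace_det_of_charpoly`, `trace_conditions` : a `2 × 2` matrix `u + ε B` over the dual numbers
  with characteristic polynomial `(X - 1)²` has `det u = 1`, `tr u = 2`, `tr (B u⁻¹) = 0`,
  `tr B = 0`; `exists_trace_zero_conj_of_charpoly` combines the two;
* `cocycle_zpow_eq_zero` : a cocycle for the adjoint action that vanishes at `t` vanishes on the
  powers of `t`.
-/

set_option autoImplicit false

open Matrix

namespace Fermat.Agent.S56.Unip.Unipotent2x2

/-- a `2 × 2` matrix with characteristic polynomial `(X - 1)²` has trace `2`, determinant `1` -/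
theorem trace_det_of_charpoly {R : Type*} [CommRing R] [Nontrivial R]
    (M : Matrix (Fin 2) (Fin 2) R) (hM : M.charpoly = (Polynomial.X - 1) ^ 2) :
    M.trace = 2 ∧ M.det = 1 := by
  rw [Matrix.charpoly_fin_two] at hM
  have h0 := congrArg (fun f => Polynomial.coeff f 0) hM
  have h1 := congrArg (fun f => Polynomial.coeff f 1) hM
  have e : ((Polynomial.X : Polynomial R) - 1) ^ 2 =
      Polynomial.X ^ 2 - Polynomial.C 2 * Polynomial.X + Polynomial.C 1 := by
    rw [Polynomial.C_1, map_ofNat]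
    ring
  rw [e] at h0 h1
  simp only [Polynomial.coeff_add, Polynomial.coeff_sub, Polynomial.coeff_X_pow,
    Polynomial.coeff_C_mul, Polynomial.coeff_X_zero, Polynomial.coeff_C_zero,
    Polynomial.coeff_X_one, Polynomial.coeff_C_succ] at h0 h1
  norm_num at h0 h1
  exact ⟨h1, h0⟩

/-- Cayley–Hamilton by hand: `det u = 1`, `tr u = 2` give `(u - 1)² = 0`. -/
theorem sub_one_mul_self {R : Type*} [CommRing R] (u : Matrix (Fin 2) (Fin 2) R)
    (hdet : u.det = 1) (htr : u.trace = 2) :
    (u - 1) * (u - 1) = 0 := by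
  rw [Matrix.det_fin_two] at hdet
  rw [Matrix.trace_fin_two] at htr
  ext i j
  fin_cases i <;> fin_cases j <;>
    simp only [Matrix.mul_apply, Fin.sum_univ_two, Matrix.sub_apply, Matrix.one_apply_eq,
      Matrix.zero_apply, Fin.zero_eta, Fin.mk_one, Fin.isValue, ne_eq, zero_ne_one, one_ne_zero,
      not_false_eq_true, Matrix.one_apply_ne, sub_zero]
  · linear_combination (u 0 0) * htr - hdet
  · linear_combination (u 0 1) * htr
  · linear_combination (u 1 0) * htr
  · linear_combination (u 1 1) * htr - hdet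

/-- `(1 + N)ⁿ = 1 + n N` when `N² = 0` -/
theorem pow_eq_one_add_nsmul {R : Type*} [CommRing R] (u : Matrix (Fin 2) (Fin 2) R)
    (h : (u - 1) * (u - 1) = 0) (n : ℕ) : u ^ n = 1 + n • (u - 1) := by
  induction n with
  | zero => rw [pow_zero, zero_smul, add_zero]
  | succ n ih =>
    have hu : u = 1 + (u - 1) := by abel
    rw [pow_succ, ih]
    nth_rewrite 2 [hu]
    rw [add_mul, mul_add, mul_add, one_mul, mul_one, one_mul, smul_mul_assoc, h, smul_zero,
      add_zero, succ_nsmul]
    abel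

/-- a unipotent `2 × 2` matrix over a ring in which `p = 0` has `p`-th power `1` -/
theorem pow_eq_one_of_sub_one_mul_self {R : Type*} [CommRing R] (p : ℕ) (hp : (p : R) = 0)
    (u : Matrix (Fin 2) (Fin 2) R) (h : (u - 1) * (u - 1) = 0) : u ^ p = 1 := by
  rw [pow_eq_one_add_nsmul u h, ← Nat.cast_smul_eq_nsmul R, hp, zero_smul, add_zero]

/-- a `2 × 2` matrix with characteristic polynomial `(X - 1)²` over a ring in which `p = 0` has
`p`-th power `1` -/
theorem pow_eq_one_of_charpoly {R : Type*} [CommRing R] [Nontrivial R] (p : ℕ) (hp : (p : R) = 0)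
    (M : Matrix (Fin 2) (Fin 2) R) (hM : M.charpoly = (Polynomial.X - 1) ^ 2) : M ^ p = 1 := by
  obtain ⟨htr, hdet⟩ := trace_det_of_charpoly M hM
  exact pow_eq_one_of_sub_one_mul_self p hp M (sub_one_mul_self M hdet htr)

variable {k : Type*} [Field k]

theorem inv_eq_two_sub (u : Matrix (Fin 2) (Fin 2) k) (hdet : u.det = 1) (htr : u.trace = 2) :
    u⁻¹ = 1 - (u - 1) := by
  refine Matrix.inv_eq_right_inv ?_
  have h := sub_one_mul_self u hdet htr
  have h2 : u * (1 - (u - 1)) = 1 - (u - 1) * (u - 1) := by noncomm_ring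
  rw [h2, h, sub_zero]

/-- abstract solution: if `N² = 0` and `[N, Y] = C` then `X := Y - C/2 - NYN/2` solves
`(1 + N) X (1 - N) - X = C`. -/
theorem conj_sub_eq (h2 : (2 : k) ≠ 0) (N Y : Matrix (Fin 2) (Fin 2) k) (hN : N * N = 0) :
    (1 + N) * (Y - (2⁻¹ : k) • (N * Y - Y * N) - (2⁻¹ : k) • (N * Y * N)) * (1 - N) -
      (Y - (2⁻¹ : k) • (N * Y - Y * N) - (2⁻¹ : k) • (N * Y * N)) = N * Y - Y * N := by
  have hN' : ∀ Z : Matrix (Fin 2) (Fin 2) k, Z * N * N = 0 := fun Z => by
    rw [mul_assoc, hN, mul_zero]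
  have hhalf : (2⁻¹ : k) + 2⁻¹ = 1 := by
    rw [← two_mul, mul_inv_cancel₀ h2]
  simp only [mul_sub, sub_mul, add_mul, one_mul, mul_one, smul_mul_assoc,
    mul_smul_comm, ← mul_assoc, hN, hN', zero_mul, smul_sub]
  linear_combination (norm := module) hhalf • (N * Y * N)

/-- the commutator equation `[u - 1, Y] = C` is solvable on the hyperplane `tr (C u) = 0` -/
theorem exists_comm_eq (h2 : (2 : k) ≠ 0) (u C : Matrix (Fin 2) (Fin 2) k) (hdet : u.det = 1)
    (htr : u.trace = 2) (hu : u ≠ 1) (hC0 : C.trace = 0) (hCu : (C * u).trace = 0) :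
    ∃ Y : Matrix (Fin 2) (Fin 2) k, Y.trace = 0 ∧ (u - 1) * Y - Y * (u - 1) = C := by
  rw [Matrix.det_fin_two] at hdet
  rw [Matrix.trace_fin_two] at htr hC0
  rw [Matrix.trace_fin_two, Matrix.mul_apply, Matrix.mul_apply, Fin.sum_univ_two,
    Fin.sum_univ_two] at hCu
  by_cases hb : u 0 1 = 0
  · by_cases hc : u 1 0 = 0
    · -- u is diagonal, hence 1
      exfalso
      apply hu
      have ha : (u 0 0 - 1) * (u 0 0 - 1) = 0 := by
        rw [hb, zero_mul, sub_zero] at hdet
        linear_combination (u 0 0) * htr - hdet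
      have ha1 : u 0 0 = 1 := by
        have := mul_self_eq_zero.mp ha
        linear_combination this
      have hd1 : u 1 1 = 1 := by linear_combination htr - ha1
      ext i j
      fin_cases i <;> fin_cases j <;> simp [ha1, hd1, hb, hc]
    · -- c ≠ 0
      refine ⟨!![C 1 0 / (2 * u 1 0), -(C 0 0) / u 1 0; 0, -(C 1 0 / (2 * u 1 0))], ?_, ?_⟩
      · rw [Matrix.trace_fin_two]
        simp
      · ext i j
        fin_cases i <;> fin_cases j <;>
          simp only [Matrix.sub_apply, Matrix.mul_apply, Fin.sum_univ_two, Matrix.one_apply_eq,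
            Matrix.of_apply, Matrix.cons_val', Matrix.cons_val_zero, Matrix.cons_val_one,
            Matrix.empty_val', Matrix.cons_val_fin_one, Fin.zero_eta, Fin.mk_one, Fin.isValue,
            ne_eq, zero_ne_one, one_ne_zero, not_false_eq_true, Matrix.one_apply_ne, sub_zero,
            mul_zero, zero_mul, add_zero, zero_add]
        · field_simp
          ring
        · field_simp
          linear_combination (-2 : k) * hCu + 2 * (u 1 1) * hC0
        · field_simp
          ring
        · field_simp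
          linear_combination (-2 * u 1 0) * hC0
  · -- b ≠ 0
    refine ⟨!![-(C 0 1 / (2 * u 0 1)), 0; C 0 0 / u 0 1, C 0 1 / (2 * u 0 1)], ?_, ?_⟩
    · rw [Matrix.trace_fin_two]
      simp
    · ext i j
      fin_cases i <;> fin_cases j <;>
        simp only [Matrix.sub_apply, Matrix.mul_apply, Fin.sum_univ_two, Matrix.one_apply_eq,
          Matrix.of_apply, Matrix.cons_val', Matrix.cons_val_zero, Matrix.cons_val_one,
          Matrix.empty_val', Matrix.cons_val_fin_one, Fin.zero_eta, Fin.mk_one, Fin.isValue,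
          ne_eq, zero_ne_one, one_ne_zero, not_false_eq_true, Matrix.one_apply_ne, sub_zero,
          mul_zero, zero_mul, add_zero, zero_add]
      · field_simp
        ring
      · field_simp
        ring
      · field_simp
        linear_combination (-2 : k) * hCu + 2 * (u 1 1) * hC0
      · field_simp
        linear_combination (-2 * u 0 1) * hC0

/-- **[U-A]** `(Ad u - 1) ad⁰ = {C ∈ ad⁰ : tr (C u) = 0}` for a non-trivial unipotent `u`. -/
theorem exists_trace_zero_conj (h2 : (2 : k) ≠ 0) (u C : Matrix (Fin 2) (Fin 2) k)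
    (hdet : u.det = 1) (htr : u.trace = 2) (hu : u ≠ 1) (hC0 : C.trace = 0)
    (hCu : (C * u).trace = 0) :
    ∃ X : Matrix (Fin 2) (Fin 2) k, X.trace = 0 ∧ C = u * X * u⁻¹ - X := by
  obtain ⟨Y, hY0, hY⟩ := exists_comm_eq h2 u C hdet htr hu hC0 hCu
  have hN := sub_one_mul_self u hdet htr
  set N := u - 1 with hNdef
  have hu1 : u = 1 + N := by rw [hNdef]; abel
  have huinv : u⁻¹ = 1 - N := inv_eq_two_sub u hdet htr
  refine ⟨Y - (2⁻¹ : k) • (N * Y - Y * N) - (2⁻¹ : k) • (N * Y * N), ?_, ?_⟩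
  · rw [Matrix.trace_sub, Matrix.trace_sub, Matrix.trace_smul, Matrix.trace_smul,
      Matrix.trace_sub, Matrix.trace_mul_comm N Y, sub_self, smul_zero, sub_zero,
      Matrix.trace_mul_comm (N * Y) N, ← mul_assoc, hN, zero_mul, Matrix.trace_zero, smul_zero,
      sub_zero, hY0]
  · rw [huinv, hu1, conj_sub_eq h2 N Y hN, hY]

/-- **[U-A]** the trace conditions: if `M = u + ε B` over the dual numbers has characteristic
polynomial `(X - 1)²` then `det u = 1`, `tr u = 2`, and `C := B u⁻¹` satisfies `tr C = 0`,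
`tr (C u) = 0`. -/
theorem trace_conditions (M : Matrix (Fin 2) (Fin 2) (DualNumber k))
    (hM : M.charpoly = (Polynomial.X - 1) ^ 2) (u : GL (Fin 2) k)
    (hu : M.map TrivSqZeroExt.fst = (u : Matrix (Fin 2) (Fin 2) k)) :
    (u : Matrix (Fin 2) (Fin 2) k).det = 1 ∧ (u : Matrix (Fin 2) (Fin 2) k).trace = 2 ∧
      (M.map TrivSqZeroExt.snd * ((u⁻¹ : GL (Fin 2) k) : Matrix (Fin 2) (Fin 2) k)).trace = 0 ∧
      (M.map TrivSqZeroExt.snd * ((u⁻¹ : GL (Fin 2) k) : Matrix (Fin 2) (Fin 2) k) *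
        (u : Matrix (Fin 2) (Fin 2) k)).trace = 0 := by
  obtain ⟨htr, hdet⟩ := trace_det_of_charpoly M hM
  replace htr : M.trace = 1 + 1 := by rw [htr, one_add_one_eq_two]
  have hu' : ∀ i j, (u : Matrix (Fin 2) (Fin 2) k) i j = TrivSqZeroExt.fst (M i j) := by
    intro i j
    rw [← hu]; rfl
  have htr1 := congrArg TrivSqZeroExt.fst htr
  have htr2 := congrArg TrivSqZeroExt.snd htr
  have hdet1 := congrArg TrivSqZeroExt.fst hdet
  have hdet2 := congrArg TrivSqZeroExt.snd hdet
  rw [Matrix.trace_fin_two] at htr1 htr2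
  rw [Matrix.det_fin_two] at hdet1 hdet2
  simp only [TrivSqZeroExt.fst_add, TrivSqZeroExt.snd_add, TrivSqZeroExt.fst_sub,
    TrivSqZeroExt.snd_sub, TrivSqZeroExt.fst_mul, TrivSqZeroExt.snd_mul, smul_eq_mul,
    MulOpposite.smul_eq_mul_unop, MulOpposite.unop_op, TrivSqZeroExt.fst_one,
    TrivSqZeroExt.snd_one, ← hu'] at htr1 htr2 hdet1 hdet2
  have hd : (u : Matrix (Fin 2) (Fin 2) k).det = 1 := by
    rw [Matrix.det_fin_two]; exact hdet1
  have ht : (u : Matrix (Fin 2) (Fin 2) k).trace = 2 := by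
    rw [Matrix.trace_fin_two, htr1, one_add_one_eq_two]
  refine ⟨hd, ht, ?_, ?_⟩
  · rw [Matrix.coe_units_inv, Matrix.inv_def, hd, Ring.inverse_one, one_smul,
      Matrix.adjugate_fin_two, Matrix.trace_fin_two]
    simp only [Matrix.mul_apply, Fin.sum_univ_two, Matrix.of_apply, Matrix.cons_val_zero,
      Matrix.cons_val_one, Matrix.cons_val', Matrix.empty_val', Matrix.cons_val_fin_one,
      Matrix.map_apply]
    linear_combination hdet2
  · rw [Matrix.mul_assoc, ← Units.val_mul, inv_mul_cancel, Units.val_one, Matrix.mul_one,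
      Matrix.trace_fin_two]
    simp only [Matrix.map_apply]
    rw [htr2, add_zero]

/-- **[U-A]** combined form: the cocycle value `C = B u⁻¹` of a unipotent `M = u + ε B` with
`u ≠ 1` is a coboundary value `u X u⁻¹ - X` with `X` trace-free. -/
theorem exists_trace_zero_conj_of_charpoly (h2 : (2 : k) ≠ 0)
    (M : Matrix (Fin 2) (Fin 2) (DualNumber k)) (hM : M.charpoly = (Polynomial.X - 1) ^ 2)
    (u : GL (Fin 2) k) (hu : M.map TrivSqZeroExt.fst = (u : Matrix (Fin 2) (Fin 2) k))
    (hu1 : u ≠ 1) :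
    ∃ X : Matrix (Fin 2) (Fin 2) k, X.trace = 0 ∧
      M.map TrivSqZeroExt.snd * ((u⁻¹ : GL (Fin 2) k) : Matrix (Fin 2) (Fin 2) k) =
        (u : Matrix (Fin 2) (Fin 2) k) * X * ((u⁻¹ : GL (Fin 2) k) : Matrix (Fin 2) (Fin 2) k)
          - X := by
  obtain ⟨hd, ht, hC0, hCu⟩ := trace_conditions M hM u hu
  have hne : (u : Matrix (Fin 2) (Fin 2) k) ≠ 1 := fun h => hu1 (Units.ext h)
  obtain ⟨X, hX0, hX⟩ :=
    exists_trace_zero_conj h2 (u : Matrix (Fin 2) (Fin 2) k) _ hd ht hne hC0 hCu
  refine ⟨X, hX0, ?_⟩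
  rw [hX, Matrix.coe_units_inv]

/-- a cocycle for the adjoint action vanishing at `t` vanishes at all powers of `t` -/
theorem cocycle_zpow_eq_zero {H : Type*} [Group H] (rb : H →* GL (Fin 2) k)
    (c : H → Matrix (Fin 2) (Fin 2) k)
    (hc : ∀ g h, c (g * h) = c g + (rb g : Matrix (Fin 2) (Fin 2) k) * c h *
      ((rb g)⁻¹ : GL (Fin 2) k))
    (t : H) (ht : c t = 0) (m : ℤ) : c (t ^ m) = 0 := by
  have h1 : c 1 = 0 := by
    have := hc 1 1
    rw [mul_one, map_one, inv_one, Units.val_one, one_mul, mul_one] at this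
    exact left_eq_add.mp this
  have hnat : ∀ n : ℕ, c (t ^ n) = 0 := by
    intro n
    induction n with
    | zero => rw [pow_zero]; exact h1
    | succ n ih => rw [pow_succ, hc, ih, ht, mul_zero, zero_mul, add_zero]
  have hinv : ∀ g : H, c g = 0 → c g⁻¹ = 0 := by
    intro g hg
    have := hc g g⁻¹
    rw [mul_inv_cancel, h1, hg, zero_add] at this
    -- rb g * c g⁻¹ * (rb g)⁻¹ = 0
    have h3 : ((rb g)⁻¹ : GL (Fin 2) k).val * ((rb g : Matrix (Fin 2) (Fin 2) k) * c g⁻¹ *
        ((rb g)⁻¹ : GL (Fin 2) k)) * (rb g : Matrix (Fin 2) (Fin 2) k) = 0 := by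
      rw [← this, mul_zero, zero_mul]
    have h4 : ((rb g)⁻¹ : GL (Fin 2) k).val * (rb g : Matrix (Fin 2) (Fin 2) k) = 1 := by
      rw [← Units.val_mul, inv_mul_cancel, Units.val_one]
    calc c g⁻¹ = (((rb g)⁻¹ : GL (Fin 2) k).val * (rb g : Matrix (Fin 2) (Fin 2) k)) * c g⁻¹
          * (((rb g)⁻¹ : GL (Fin 2) k).val * (rb g : Matrix (Fin 2) (Fin 2) k)) := by
            rw [h4, one_mul, mul_one]
      _ = _ := by
            rw [← h3]
            noncomm_ring
  cases m with
  | ofNat n => rw [Int.ofNat_eq_natCast, zpow_natCast]; exact hnat n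
  | negSucc n => rw [zpow_negSucc]; exact hinv _ (hnat _)

end Fermat.Agent.S56.Unip.Unipotent2x2
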