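import Mathlib
import Fermat.Prelude.Def_GaloisRep_LocalConditions
import Fermat.Agent.S53.Dictionary
import Fermat.Agent.S53.TangentBound
import Fermat.Agent.S56.Unip.Unipotent2x2

/-!
# PROJECT T (S56), block (a4): from the Prelude's `IsUnipotentOnInertiaAt` to matrices

For a continuous matrix-valued `r : GQ →* M₂(A)` the Prelude's condition
`(ofMat r h).IsUnipotentOnInertiaAt q` says `LinearMap.charpoly ((ofMat r h).ρ σ) = (X - 1)²` on
inertia; here it is translated into the matrix statements consumed by `[U-M]`: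

* `charpoly_ofMat`, `charpoly_of_isUnipotentOnInertiaAt` : the matrix `charpoly` of `r σ`;
* `pow_eq_one_of_isUnipotentOnInertiaAt` : `r σ ^ p = 1` when `p = 0` in `A`
  (the exponent hypothesis of `TameCyclic.exists_generator_of_exponent`);
* `natCast_dualNumber_eq_zero` : `p = 0` in `k[ε]` when `k` has characteristic `p`;
* `exists_conj_of_isUnipotentOnInertiaAt` : over `A = k[ε]`, with `u = mfst (r σ) ≠ 1`, the
  cocycle value `msnd (r σ) * u⁻¹` is `u X u⁻¹ - X` for a trace-free `X`.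
-/

set_option autoImplicit false

open Matrix

namespace Fermat.Agent.S56.Unip.TraceBridge

open Fermat.Agent.S53.Dictionary Fermat.Agent.S53.TangentBound Fermat.Agent.S56.Unip.Unipotent2x2

/-- the Prelude's `LinearMap.charpoly` of `(ofMat r h).ρ σ` is the matrix `charpoly` of `r σ` -/
theorem charpoly_ofMat {A : Type} [CommRing A] [IsLocalRing A] (r : GQ →* Mat A)
    (h : IsContMat A r) (σ : GQ) :
    LinearMap.charpoly ((ofMat r h).ρ σ) = (r σ).charpoly := by
  change LinearMap.charpoly (Matrix.toLin' (r σ)) = _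
  exact Matrix.charpoly_toLin' (r σ)

theorem charpoly_of_isUnipotentOnInertiaAt {A : Type} [CommRing A] [IsLocalRing A]
    (r : GQ →* Mat A) (h : IsContMat A r) (q : ℕ) (hU : (ofMat r h).IsUnipotentOnInertiaAt q)
    (P : ValuationSubring (AlgebraicClosure ℚ)) (hP : P.LiesOverPrime q) (σ : GQ)
    (hσ : σ ∈ P.inertiaSubgroupIn ℚ) : (r σ).charpoly = (Polynomial.X - 1) ^ 2 := by
  rw [← charpoly_ofMat r h σ]
  exact hU P hP σ hσ

/-- on inertia at `q`, a lift which is unipotent on inertia has `p`-th power `1` (`p = 0` in `A`) -/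
theorem pow_eq_one_of_isUnipotentOnInertiaAt {A : Type} [CommRing A] [IsLocalRing A]
    (r : GQ →* Mat A) (h : IsContMat A r) (q : ℕ) (hU : (ofMat r h).IsUnipotentOnInertiaAt q)
    (p : ℕ) (hp : (p : A) = 0)
    (P : ValuationSubring (AlgebraicClosure ℚ)) (hP : P.LiesOverPrime q) (σ : GQ)
    (hσ : σ ∈ P.inertiaSubgroupIn ℚ) : r σ ^ p = 1 :=
  pow_eq_one_of_charpoly p hp (r σ) (charpoly_of_isUnipotentOnInertiaAt r h q hU P hP σ hσ)

/-- `p = 0` in `k[ε]` when `k` has characteristic `p` -/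
theorem natCast_dualNumber_eq_zero {k : Type} [Field k] (p : ℕ) [CharP k p] :
    ((p : ℕ) : DualNumber k) = 0 := by
  have h : ((p : ℕ) : DualNumber k) = algebraMap k (DualNumber k) ((p : ℕ) : k) := by
    rw [map_natCast]
  rw [h, CharP.cast_eq_zero, map_zero]

/-- **the `[U-A]` output in the language of `S53.TangentBound`**: for a lift `r` to `k[ε]`
unipotent on inertia at `q`, `σ` in an inertia group at `q`, `u = mfst (r σ) ≠ 1`: the cocycle
value `msnd (r σ) * u⁻¹` is a coboundary value `u X u⁻¹ - X` with `X` trace-free. -/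
theorem exists_conj_of_isUnipotentOnInertiaAt {k : Type} [Field k] (h2 : (2 : k) ≠ 0)
    (r : GQ →* Mat (DualNumber k)) (h : IsContMat (DualNumber k) r) (q : ℕ)
    (hU : (ofMat r h).IsUnipotentOnInertiaAt q)
    (P : ValuationSubring (AlgebraicClosure ℚ)) (hP : P.LiesOverPrime q) (σ : GQ)
    (hσ : σ ∈ P.inertiaSubgroupIn ℚ) (u : GL (Fin 2) k)
    (hu : mfst (r σ) = (u : Matrix (Fin 2) (Fin 2) k)) (hu1 : u ≠ 1) :
    ∃ X : Matrix (Fin 2) (Fin 2) k, X.trace = 0 ∧
      msnd (r σ) * ((u⁻¹ : GL (Fin 2) k) : Matrix (Fin 2) (Fin 2) k) =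
        (u : Matrix (Fin 2) (Fin 2) k) * X * ((u⁻¹ : GL (Fin 2) k) : Matrix (Fin 2) (Fin 2) k)
          - X :=
  exists_trace_zero_conj_of_charpoly h2 (r σ)
    (charpoly_of_isUnipotentOnInertiaAt r h q hU P hP σ hσ) u hu hu1

/-- the trace conditions in the language of `S53.TangentBound` -/
theorem trace_conditions_of_isUnipotentOnInertiaAt {k : Type} [Field k]
    (r : GQ →* Mat (DualNumber k)) (h : IsContMat (DualNumber k) r) (q : ℕ)
    (hU : (ofMat r h).IsUnipotentOnInertiaAt q)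
    (P : ValuationSubring (AlgebraicClosure ℚ)) (hP : P.LiesOverPrime q) (σ : GQ)
    (hσ : σ ∈ P.inertiaSubgroupIn ℚ) (u : GL (Fin 2) k)
    (hu : mfst (r σ) = (u : Matrix (Fin 2) (Fin 2) k)) :
    (u : Matrix (Fin 2) (Fin 2) k).det = 1 ∧ (u : Matrix (Fin 2) (Fin 2) k).trace = 2 ∧
      (msnd (r σ) * ((u⁻¹ : GL (Fin 2) k) : Matrix (Fin 2) (Fin 2) k)).trace = 0 ∧
      (msnd (r σ)).trace = 0 := by
  obtain ⟨h1, h2, h3, h4⟩ := trace_conditions (r σ)
    (charpoly_of_isUnipotentOnInertiaAt r h q hU P hP σ hσ) u hu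
  refine ⟨h1, h2, h3, ?_⟩
  rw [Matrix.mul_assoc, ← Units.val_mul, inv_mul_cancel, Units.val_one, Matrix.mul_one] at h4
  exact h4

end Fermat.Agent.S56.Unip.TraceBridge
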