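import Mathlib
import Fermat.Agent.CFT.Local.PadicAlgCl
import Fermat.Agent.CFT.LocalBridge.Levels
import Fermat.Agent.CFT.LocalBridge.Decomposition
import Fermat.Agent.S56.Coh.Defs
import Fermat.Prelude.Def_EllipticCurve_FrobeniusTrace

/-!
# PROJECT T (S56), block (a4) `S56/Unip`, leaf [U-P]: the unramified quotient `D_q / I_q` is
topologically generated by a Frobenius element

In the open-subgroup form, which needs no choice of exponents and no lifting of finite-level
inertia groups:

* `ProCyclic.eq_top_of_locFrob_mem` (local): a subgroup of `Gal(ℚ̄_q / ℚ_q)` which contains the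
  local inertia group, the fixing subgroup of a finite extension, and a Frobenius lift, is `⊤`;
* `ProCyclic.eq_top_of_frobenius_mem` (global, the export): the same for subgroups of the
  decomposition group `Dq q` of `padicPlace q`, in the language of `S56/Coh/Defs`.

Proof: such a subgroup is open, hence closed, hence the fixing subgroup of its fixed field `F`.
`F ≤ nrField q` (main: `localInertia_eq_fixingSubgroup`), so every `x ∈ F` lies in a cyclotomic
field `C = ℚ_q(μ_M)`, `q ∤ M`, which is finite, Galois and unramified; the restriction of the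
Frobenius lift to `C` is main's `Unramified.frob`, which generates `Gal(C / ℚ_q)`
(`Unramified.zpowers_frob`); so `x ∈ ℚ_q`.
-/

set_option autoImplicit false

namespace Fermat.Agent.S56.Unip.ProCyclic

open scoped Fermat.Agent.CFT.Local.Model Pointwise

open Fermat.Agent.CFT.Local.Model Fermat.Agent.CFT.Local.Unramified
  Fermat.Agent.CFT.Local.PadicAlgClLocal Fermat.Agent.CFT.LocalBridge Fermat.Agent.CFT.Bridge
  Fermat.Agent.CFT.LC Fermat.Agent.S56.Coh IsLocalRing

variable (q : ℕ) [Fact q.Prime]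

/-- `φ` is a lift of the Frobenius: `φ z ≡ z ^ q` modulo the open unit ball, for `z` in the closed
unit ball of `PadicAlgCl q`. -/
def IsLocFrob (φ : LocGal q) : Prop := ∀ z : PadicAlgCl q, ‖z‖ ≤ 1 → ‖φ z - z ^ q‖ < 1

theorem norm_pow_sub_pow_lt {a b : PadicAlgCl q} (ha : ‖a‖ ≤ 1) (hb : ‖b‖ ≤ 1)
    (hab : ‖a - b‖ < 1) (n : ℕ) : ‖a ^ n - b ^ n‖ < 1 := by
  induction n with
  | zero => simp
  | succ n ih =>
    have h1 : a ^ (n + 1) - b ^ (n + 1) = a ^ n * (a - b) + (a ^ n - b ^ n) * b := by ring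
    rw [h1]
    refine lt_of_le_of_lt (IsUltrametricDist.norm_add_le_max _ _) (max_lt ?_ ?_)
    · rw [norm_mul, norm_pow]
      calc ‖a‖ ^ n * ‖a - b‖ ≤ 1 * ‖a - b‖ :=
            mul_le_mul_of_nonneg_right (pow_le_one₀ (norm_nonneg _) ha) (norm_nonneg _)
        _ < 1 := by rwa [one_mul]
    · rw [norm_mul]
      calc ‖a ^ n - b ^ n‖ * ‖b‖ ≤ ‖a ^ n - b ^ n‖ * 1 :=
            mul_le_mul_of_nonneg_left hb (norm_nonneg _)
        _ < 1 := by rwa [mul_one]

/-- The Frobenius condition can be tested on the dense subfield `ℚ̄`. -/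
theorem isLocFrob_of_padicEmbedding {φ : LocGal q}
    (h : ∀ y : AlgebraicClosure ℚ, ‖padicEmbedding q y‖ ≤ 1 →
      ‖φ (padicEmbedding q y) - padicEmbedding q y ^ q‖ < 1) : IsLocFrob q φ := by
  intro z hz
  obtain ⟨_, ⟨y, rfl⟩, hy⟩ :=
    Metric.mem_closure_iff.mp (denseRange_padicEmbedding q z) 1 one_pos
  rw [dist_eq_norm] at hy
  have hy1 : ‖padicEmbedding q y‖ ≤ 1 := by
    have : padicEmbedding q y = z - (z - padicEmbedding q y) := by ring
    rw [this]
    exact (norm_sub_le_max' q _ _).trans (max_le hz hy.le)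
  have h2 : φ z - z ^ q = φ (z - padicEmbedding q y) +
      ((φ (padicEmbedding q y) - padicEmbedding q y ^ q) -
        (z ^ q - padicEmbedding q y ^ q)) := by
    rw [map_sub]; ring
  rw [h2]
  refine lt_of_le_of_lt (IsUltrametricDist.norm_add_le_max _ _) (max_lt ?_ ?_)
  · rw [norm_locGal_apply]; exact hy
  · exact lt_of_le_of_lt (norm_sub_le_max' q _ _)
      (max_lt (h y hy1) (norm_pow_sub_pow_lt q hz hy1 hy q))

theorem card_residueField_padicInt : Nat.card (ResidueField ℤ_[q]) = q := by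
  rw [Nat.card_congr (PadicInt.residueField (p := q)).toEquiv, Nat.card_zmod]

/-- On a cyclotomic field of order prime to `q` the restriction of a Frobenius lift generates the
Galois group; hence an element fixed by the lift lies in `ℚ_q`. -/
theorem mem_bot_of_mem_cycField {φ : LocGal q} (hφ : IsLocFrob q φ) {M : ℕ} (hM : ¬ q ∣ M)
    {x : PadicAlgCl q} (hx : x ∈ cycField q M) (hfix : φ x = x) :
    x ∈ (⊥ : IntermediateField ℚ_[q] (PadicAlgCl q)) := by
  have hM0 : M ≠ 0 := fun h0 => hM (h0 ▸ dvd_zero q)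
  have := finiteDimensional_cycField q hM0
  have := isGalois_cycField q hM0
  set C := cycField q M with hC
  have hur : IsUnram ℤ_[q] ↥(𝒪 q C) :=
    (isUnram_iff_ramIdx_eq_one q C).mpr (ramIdx_cycField_eq_one q hM)
  set σ : C ≃ₐ[ℚ_[q]] C := φ.restrictNormal C with hσ
  have hσval : ∀ c : C, ((σ c : C) : PadicAlgCl q) = φ (c : PadicAlgCl q) := fun c =>
    AlgEquiv.restrictNormal_commutes φ C c
  -- `σ` is the Frobenius element of the unramified extension `C`
  have hfrob : σ = frob ℤ_[q] ℚ_[q] ↥(𝒪 q C) C hur := by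
    rw [eq_frob_iff hur]
    intro b
    rw [Fermat.Agent.CFT.Local.Model.mem_maximalIdeal_iff, nrm_eq_norm, card_residueField_padicInt]
    have h1 : (((galRestrict ℤ_[q] ℚ_[q] C ↥(𝒪 q C) σ b - b ^ q : ↥(𝒪 q C)) : C) :
        PadicAlgCl q) = φ ((b : C) : PadicAlgCl q) - ((b : C) : PadicAlgCl q) ^ q := by
      rw [← hσval]
      have h2 : ((galRestrict ℤ_[q] ℚ_[q] C ↥(𝒪 q C) σ b : ↥(𝒪 q C)) : C) = σ (b : C) :=
        algebraMap_galRestrict_apply ℤ_[q] σ b
      push_cast
      rw [h2]
    rw [h1]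
    apply hφ
    rw [← nrm_eq_norm]
    exact b.2
  -- so `x` is fixed by the whole Galois group
  set x' : C := ⟨x, hx⟩ with hx'
  have hσx : σ x' = x' := Subtype.ext (by rw [hσval]; exact hfix)
  have hall : ∀ g : C ≃ₐ[ℚ_[q]] C, g x' = x' := by
    intro g
    have hg : g ∈ Subgroup.zpowers σ := by
      rw [hfrob, zpowers_frob hur]
      exact Subgroup.mem_top g
    obtain ⟨n, rfl⟩ := Subgroup.mem_zpowers_iff.mp hg
    have hstab : σ ∈ MulAction.stabilizer (C ≃ₐ[ℚ_[q]] C) x' := hσx
    exact (Subgroup.zpow_mem _ hstab n : σ ^ n ∈ MulAction.stabilizer (C ≃ₐ[ℚ_[q]] C) x')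
  have hbot : x' ∈ (⊥ : IntermediateField ℚ_[q] C) :=
    (IsGalois.mem_bot_iff_fixed x').mpr hall
  obtain ⟨a, ha⟩ := IntermediateField.mem_bot.mp hbot
  refine IntermediateField.mem_bot.mpr ⟨a, ?_⟩
  have := congrArg (fun c : C => (c : PadicAlgCl q)) ha
  exact this

/-- **Local form.** A subgroup of `Gal(ℚ̄_q/ℚ_q)` containing the inertia group, the fixing subgroup
of a finite extension and a Frobenius lift is everything. -/
theorem eq_top_of_locFrob_mem (K : Subgroup (LocGal q)) (hI : localInertia q ≤ K)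
    (E : IntermediateField ℚ_[q] (PadicAlgCl q)) [FiniteDimensional ℚ_[q] E]
    (hE : E.fixingSubgroup ≤ K) (φ : LocGal q) (hφ : IsLocFrob q φ) (hφK : φ ∈ K) : K = ⊤ := by
  have hopen : IsOpen (K : Set (LocGal q)) :=
    Subgroup.isOpen_mono hE E.fixingSubgroup_isOpen
  have hclosed : IsClosed (K : Set (LocGal q)) := Subgroup.isClosed_of_isOpen K hopen
  set Kc : ClosedSubgroup (LocGal q) := ⟨K, hclosed⟩ with hKc
  have h1 : (IntermediateField.fixedField K).fixingSubgroup = K :=
    InfiniteGalois.fixingSubgroup_fixedField Kc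
  have h2 : IntermediateField.fixedField K = ⊥ := by
    rw [eq_bot_iff]
    intro x hx
    have hxK : ∀ g ∈ K, g x = x := fun g hg =>
      (IntermediateField.mem_fixedField_iff K x).mp hx g hg
    have hxnr : x ∈ nrField q := by
      rw [← InfiniteGalois.fixedField_fixingSubgroup (nrField q),
        ← localInertia_eq_fixingSubgroup, IntermediateField.mem_fixedField_iff]
      exact fun g hg => hxK g (hI hg)
    obtain ⟨M, hM, hxM⟩ := exists_mem_cycField_of_mem_nrField q hxnr
    exact mem_bot_of_mem_cycField q hφ hM hxM (hxK φ hφK)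
  rw [← h1, h2, IntermediateField.fixingSubgroup_bot]

/-- a global Frobenius element at `padicPlace q` comes from a local Frobenius lift -/
theorem exists_locFrob {φ : GQ} (hφ : (padicPlace q).IsFrobeniusAt φ q) :
    ∃ τ : LocGal q, localGaloisToGlobal q τ = φ ∧ IsLocFrob q τ := by
  obtain ⟨τ, hτ⟩ := exists_localGaloisToGlobal_eq q
    (MulAction.mem_stabilizer_iff.mp hφ.mem_decompositionSubgroup)
  refine ⟨τ, hτ, isLocFrob_of_padicEmbedding q fun y hy => ?_⟩
  obtain ⟨hdec, hfr⟩ := hφ
  have hyA : y ∈ padicPlace q := (mem_padicPlace_iff_norm q).mpr hy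
  have h1 := hfr (IsLocalRing.residue (padicPlace q) ⟨y, hyA⟩)
  rw [← IsLocalRing.ResidueField.residue_smul, ← map_pow, ← sub_eq_zero, ← map_sub,
    IsLocalRing.residue_eq_zero_iff, ← (padicPlace q).coe_mem_nonunits_iff] at h1
  have h2 : φ y - y ^ q ∈ (padicPlace q).nonunits := h1
  rw [mem_nonunits_padicPlace_iff, map_sub, map_pow, ← hτ, padicEmbedding_localGaloisToGlobal]
    at h2
  exact h2

/-- **[U-P], the export.** A subgroup of the decomposition group `D_q` which contains the inertia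
group `I_q`, a level, and a Frobenius element, is everything. -/
theorem eq_top_of_frobenius_mem (K : Subgroup ↥(Dq q))
    (hI : ∀ s : ↥(Dq q), (s : GQ) ∈ Iq q → s ∈ K)
    (hU : ∃ U ∈ (levelsOf (Dq q).subtype).sets, U ≤ K)
    (φ : ↥(Dq q)) (hφ : (padicPlace q).IsFrobeniusAt (φ : GQ) q) (hK : φ ∈ K) : K = ⊤ := by
  -- the local-to-global map, with values in `D_q`
  let r : LocGal q →* ↥(Dq q) :=
    (localGaloisToGlobal q).codRestrict (Dq q)
      (fun τ => localGaloisToGlobal_mem_decompositionSubgroup q τ)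
  have hr : ∀ τ, ((r τ : ↥(Dq q)) : GQ) = localGaloisToGlobal q τ := fun _ => rfl
  have hrsurj : Function.Surjective r := by
    intro s
    obtain ⟨τ, hτ⟩ := exists_localGaloisToGlobal_eq q (MulAction.mem_stabilizer_iff.mp s.2)
    exact ⟨τ, Subtype.ext hτ⟩
  -- the three hypotheses, pulled back
  have h1 : localInertia q ≤ K.comap r := by
    intro τ hτ
    rw [Subgroup.mem_comap]
    apply hI
    rw [hr]
    change localGaloisToGlobal q τ ∈ (padicPlace q).inertiaSubgroupIn ℚ
    rw [inertiaSubgroupIn_padicPlace]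
    exact Subgroup.mem_map_of_mem _ hτ
  obtain ⟨U, ⟨V, ⟨_, F, hF, rfl⟩, rfl⟩, hUK⟩ := hU
  have : FiniteDimensional ℚ F := hF
  have h2 : (localLevel q F).fixingSubgroup ≤ K.comap r := by
    intro τ hτ
    rw [Subgroup.mem_comap]
    apply hUK
    rw [Subgroup.mem_comap]
    exact (mem_fixingSubgroup_localLevel_iff q F τ).mp hτ
  obtain ⟨τ0, hτ0, hfrob⟩ := exists_locFrob q hφ
  have h3 : τ0 ∈ K.comap r := by
    rw [Subgroup.mem_comap]
    have : r τ0 = φ := Subtype.ext hτ0
    rw [this]
    exact hK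
  have htop := eq_top_of_locFrob_mem q (K.comap r) h1 (localLevel q F) h2 τ0 hfrob h3
  rw [eq_top_iff]
  intro s _
  obtain ⟨τ, rfl⟩ := hrsurj s
  have : τ ∈ K.comap r := htop ▸ Subgroup.mem_top τ
  exact this

end Fermat.Agent.S56.Unip.ProCyclic
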