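import Mathlib
import Fermat.Agent.Lib.FrobeniusExists
import Fermat.Agent.S56.Unip.ProCyclic

/-!
# PROJECT T (S56), block (a4) `S56/Unip`, leaf [U-U]: unramified classes are counted by `H⁰`

For a finite smooth `A : Rep k GQ` and the fixed place `padicPlace q`:

  `card (Z1unr q A / B1 (Dq q) A) ≤ card A^{D_q}`.

Inflation-restriction by hand: with `N := A^{I_q}`, `φ` a Frobenius and `T := φ - 1` on `N`,
a cocycle vanishing on `I_q` has values in `N` and is determined by its value at `φ`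
(`ProCyclic.eq_top_of_frobenius_mem`); it is a coboundary as soon as this value lies in `T N`;
and `card (N / T N) = card (ker T) = card A^{D_q}`.
-/

set_option autoImplicit false

namespace Fermat.Agent.S56.Unip.Unramified

open scoped Pointwise

open CategoryTheory groupCohomology
open Fermat.Agent.CFT.LC Fermat.Agent.CFT.Bridge Fermat.Agent.CFT.LocalBridge
  Fermat.Agent.S56.Coh Fermat.Agent.S56.Unip.ProCyclic

variable (q : ℕ) [Fact q.Prime] {k : Type} [CommRing k] (A : Rep.{0} k GQ)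

/-! ### Inertia is normal in the decomposition group -/

theorem conj_mem_Iq {g s : GQ} (hg : g ∈ Dq q) (hs : s ∈ Iq q) : g⁻¹ * s * g ∈ Iq q := by
  have h1 : g • padicPlace q = padicPlace q := MulAction.mem_stabilizer_iff.mp hg
  have h2 := (mem_inertiaSubgroupIn_smul_iff (K := ℚ) (padicPlace q) g s)
  rw [h1] at h2
  exact h2.mp hs

theorem conj_mem_Iq' {g s : GQ} (hg : g ∈ Dq q) (hs : s ∈ Iq q) : g * s * g⁻¹ ∈ Iq q := by
  have := conj_mem_Iq q ((Dq q).inv_mem hg) hs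
  rwa [inv_inv] at this

/-! ### The inertia invariants -/

/-- `N = A^{I_q}` -/
def invI : Submodule k A where
  carrier := {a | ∀ s ∈ Iq q, A.ρ s a = a}
  add_mem' := fun {a b} ha hb s hs => by rw [map_add, ha s hs, hb s hs]
  zero_mem' := fun s _ => map_zero _
  smul_mem' := fun r a ha s hs => by rw [map_smul, ha s hs]

theorem mem_invI {a : A} : a ∈ invI q A ↔ ∀ s ∈ Iq q, A.ρ s a = a := Iff.rfl

theorem ρ_mem_invI {g : GQ} (hg : g ∈ Dq q) {a : A} (ha : a ∈ invI q A) :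
    A.ρ g a ∈ invI q A := by
  intro s hs
  have h1 : s * g = g * (g⁻¹ * s * g) := by group
  rw [← Module.End.mul_apply, ← map_mul, h1, map_mul, Module.End.mul_apply,
    ha _ (conj_mem_Iq q hg hs)]

/-! ### Cocycles on `D_q` vanishing on inertia -/

/-- cocycles on `D_q` which vanish on `I_q` -/
def Z0 : Submodule k (↥(Dq q) → resRep (Dq q) A) where
  carrier := {c | c ∈ Z1 (Dq q) A ∧ ∀ s : ↥(Dq q), (s : GQ) ∈ Iq q → c s = 0}
  add_mem' := by
    rintro c c' ⟨hc, h⟩ ⟨hc', h'⟩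
    exact ⟨Submodule.add_mem _ hc hc', fun s hs => by rw [Pi.add_apply, h s hs, h' s hs, add_zero]⟩
  zero_mem' := ⟨Submodule.zero_mem _, fun _ _ => rfl⟩
  smul_mem' := by
    rintro r c ⟨hc, h⟩
    exact ⟨Submodule.smul_mem _ r hc, fun s hs => by rw [Pi.smul_apply, h s hs, smul_zero]⟩

theorem Z0_le_Z1unr : Z0 q A ≤ Z1unr q A := by
  rintro c ⟨hc, h⟩
  exact ⟨hc, 0, fun s hs => by rw [h s hs, map_zero, sub_zero]⟩

variable {q A}

theorem cocycle_one {c : ↥(Dq q) → resRep (Dq q) A} (hc : c ∈ Z1 (Dq q) A) : c 1 = 0 := by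
  have h := ((mem_Z1_iff (Dq q) c).mp hc).1 1 1
  rw [mul_one, Subgroup.coe_one, map_one, Module.End.one_apply] at h
  exact left_eq_add.mp h |>.symm ▸ rfl

theorem cocycle_inv {c : ↥(Dq q) → resRep (Dq q) A} (hc : c ∈ Z1 (Dq q) A) (g : ↥(Dq q))
    (hg : c g = 0) : c g⁻¹ = 0 := by
  have h := ((mem_Z1_iff (Dq q) c).mp hc).1 g⁻¹ g
  rw [inv_mul_cancel, cocycle_one hc, hg, map_zero, zero_add] at h
  exact h.symm

/-- a cocycle vanishing on inertia and at a Frobenius element vanishes -/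
theorem eq_zero_of_frob {c : ↥(Dq q) → resRep (Dq q) A} (hc : c ∈ Z0 q A) (φ : ↥(Dq q))
    (hφ : (padicPlace q).IsFrobeniusAt (φ : GQ) q) (hcφ : c φ = 0) : c = 0 := by
  obtain ⟨hc1, hcI⟩ := hc
  have hcoc := ((mem_Z1_iff (Dq q) c).mp hc1).1
  obtain ⟨U, hU, hU1, _⟩ := ((mem_Z1_iff (Dq q) c).mp hc1).2
  let K : Subgroup ↥(Dq q) :=
    { carrier := {g | c g = 0}
      one_mem' := cocycle_one hc1
      mul_mem' := fun {g h} hg hh => by
        change c (g * h) = 0
        rw [hcoc, show c h = 0 from hh, show c g = 0 from hg, map_zero, add_zero]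
      inv_mem' := fun {g} hg => cocycle_inv hc1 g hg }
  have hK : K = ⊤ := eq_top_of_frobenius_mem q K hcI
    ⟨U, hU, fun s hs => by
      change c s = 0
      have := hU1 1 s hs
      rw [one_mul] at this
      rw [this]
      exact cocycle_one hc1⟩ φ hφ hcφ
  funext g
  have : g ∈ K := hK ▸ Subgroup.mem_top g
  exact this

/-- values of a cocycle vanishing on inertia are inertia invariants -/
theorem apply_mem_invI {c : ↥(Dq q) → resRep (Dq q) A} (hc : c ∈ Z0 q A) (g : ↥(Dq q)) :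
    (c g : A) ∈ invI q A := by
  obtain ⟨hc1, hcI⟩ := hc
  have hcoc := ((mem_Z1_iff (Dq q) c).mp hc1).1
  intro s hs
  -- `s g = g (g⁻¹ s g)`
  let s' : ↥(Dq q) := ⟨s, Iq_le_Dq q hs⟩
  let t : ↥(Dq q) := g⁻¹ * s' * g
  have ht : (t : GQ) ∈ Iq q := conj_mem_Iq q g.2 hs
  have h1 : s' * g = g * t := by
    change s' * g = g * (g⁻¹ * s' * g)
    group
  have h2 : c (s' * g) = A.ρ s (c g) := by
    rw [hcoc, hcI s' hs, add_zero]
  have h3 : c (g * t) = c g := by
    rw [hcoc, hcI t ht, map_zero, zero_add]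
  rw [← h2, h1, h3]

/-- invariants under inertia and Frobenius are invariants under `D_q` -/
theorem fixed_of_frob (hsm : ∀ a : A, ∃ U ∈ levelsAll.sets, ∀ s ∈ U, A.ρ s a = a) {a : A}
    (ha : a ∈ invI q A) (φ : ↥(Dq q)) (hφ : (padicPlace q).IsFrobeniusAt (φ : GQ) q)
    (hφa : A.ρ (φ : GQ) a = a) (g : ↥(Dq q)) : A.ρ (g : GQ) a = a := by
  obtain ⟨U, hU, hUa⟩ := hsm a
  let K : Subgroup ↥(Dq q) :=
    { carrier := {g | A.ρ (g : GQ) a = a}
      one_mem' := by
        change A.ρ ((1 : ↥(Dq q)) : GQ) a = a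
        rw [Subgroup.coe_one, map_one, Module.End.one_apply]
      mul_mem' := fun {g h} hg hh => by
        change A.ρ ((g * h : ↥(Dq q)) : GQ) a = a
        rw [Subgroup.coe_mul, map_mul, Module.End.mul_apply, show A.ρ (h : GQ) a = a from hh,
          show A.ρ (g : GQ) a = a from hg]
      inv_mem' := fun {g} hg => by
        change A.ρ ((g⁻¹ : ↥(Dq q)) : GQ) a = a
        have h1 : A.ρ ((g⁻¹ : ↥(Dq q)) : GQ) (A.ρ (g : GQ) a) = a := by
          rw [← Module.End.mul_apply, ← map_mul, Subgroup.coe_inv, inv_mul_cancel, map_one,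
            Module.End.one_apply]
        rwa [show A.ρ (g : GQ) a = a from hg] at h1 }
  have hK : K = ⊤ := eq_top_of_frobenius_mem q K (fun s hs => ha _ hs)
    ⟨U.comap (Dq q).subtype, Levels.mem_comap_sets hU, fun s hs => hUa _ hs⟩ φ hφ hφa
  have : g ∈ K := hK ▸ Subgroup.mem_top g
  exact this

/-! ### Linear algebra: `card (N / T N) = card (ker T)` -/

theorem card_quot_range_eq_card_ker {N : Type} [AddCommGroup N] [Module k N] [Finite N]
    (T : N →ₗ[k] N) : Nat.card (N ⧸ LinearMap.range T) = Nat.card (LinearMap.ker T) := by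
  have h1 := Submodule.card_eq_card_quotient_mul_card (LinearMap.range T)
  have h2 := Submodule.card_eq_card_quotient_mul_card (LinearMap.ker T)
  have h3 : Nat.card (N ⧸ LinearMap.ker T) = Nat.card (LinearMap.range T) :=
    Nat.card_congr T.quotKerEquivRange.toEquiv
  rw [h3] at h2
  have hpos : 0 < Nat.card (LinearMap.range T) := Nat.card_pos
  have h4 : Nat.card (LinearMap.range T) * Nat.card (N ⧸ LinearMap.range T) =
      Nat.card (LinearMap.range T) * Nat.card (LinearMap.ker T) := by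
    rw [← h1, h2, mul_comm]
  exact Nat.eq_of_mul_eq_mul_left hpos h4

/-! ### The count -/

variable (q A)

/-- the coboundary of `a`, as a function on `D_q` -/
noncomputable def dfun (a : A) : ↥(Dq q) → resRep (Dq q) A := (d₀₁ (resRep (Dq q) A)).hom a

theorem dfun_apply (a : A) (g : ↥(Dq q)) : dfun q A a g = A.ρ (g : GQ) a - a := by
  rw [dfun, d₀₁_hom_apply]
  rfl

variable {q A}

theorem dfun_mem_B1 (hsm : ∀ a : A, ∃ U ∈ levelsAll.sets, ∀ s ∈ U, A.ρ s a = a) (a : A) :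
    dfun q A a ∈ B1 (Dq q) A := by
  obtain ⟨U, hU, hUa⟩ := hsm a
  exact (mem_B₁_iff _).mpr
    ⟨a, ⟨U.comap (Dq q).subtype, Levels.mem_comap_sets hU, fun s hs => hUa _ hs⟩, rfl⟩

/-- subtracting the coboundary of a witness lands in `Z0` -/
theorem sub_dfun_mem_Z0 (hsm : ∀ a : A, ∃ U ∈ levelsAll.sets, ∀ s ∈ U, A.ρ s a = a)
    {c : ↥(Dq q) → resRep (Dq q) A} (hc : c ∈ Z1 (Dq q) A) {a : A}
    (ha : ∀ s : ↥(Dq q), (s : GQ) ∈ Iq q → c s = A.ρ s a - a) : c - dfun q A a ∈ Z0 q A := by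
  refine ⟨Submodule.sub_mem _ hc (B1_le_Z1 _ (dfun_mem_B1 hsm a)), fun s hs => ?_⟩
  rw [Pi.sub_apply, dfun_apply, ha s hs]
  exact sub_self _

variable (q A) in
/-- `T = φ - 1` on `N = A^{I_q}` -/
noncomputable def frobSubOne (φ : ↥(Dq q)) : ↥(invI q A) →ₗ[k] ↥(invI q A) :=
  (A.ρ (φ : GQ)).restrict (p := invI q A) (q := invI q A) (fun _ hx => ρ_mem_invI q A φ.2 hx) -
    LinearMap.id

theorem frobSubOne_apply (φ : ↥(Dq q)) (n : ↥(invI q A)) :
    ((frobSubOne q A φ n : ↥(invI q A)) : A) = A.ρ (φ : GQ) (n : A) - n := rfl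

variable (q A) in
/-- evaluation at `φ`, from `Z0` to `N` -/
noncomputable def evN (φ : ↥(Dq q)) : ↥(Z0 q A) →ₗ[k] ↥(invI q A) where
  toFun c := ⟨c.1 φ, apply_mem_invI c.2 φ⟩
  map_add' _ _ := rfl
  map_smul' _ _ := rfl

theorem evN_apply (φ : ↥(Dq q)) (c : ↥(Z0 q A)) : ((evN q A φ c : ↥(invI q A)) : A) = c.1 φ := rfl

/-- **[U-U], the export.** `card (Z1unr / B1) ≤ card A^{D_q}` for a finite smooth `A`. -/
theorem card_Z1unr_quot_le (q : ℕ) [Fact q.Prime] (A : Rep.{0} k GQ) [Finite A]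
    (hsm : ∀ a : A, ∃ U ∈ levelsAll.sets, ∀ s ∈ U, A.ρ s a = a) :
    Nat.card (↥(Z1unr q A) ⧸ (B1 (Dq q) A).comap (Z1unr q A).subtype) ≤
      Nat.card {a : A // ∀ g : ↥(Dq q), A.ρ (g : GQ) a = a} := by
  -- a Frobenius element
  obtain ⟨φ0, hφ0⟩ := Fermat.Agent.Lib.FrobeniusExists.exists_isFrobeniusAt_algebraicClosure
    (padicPlace q) (Fact.out : q.Prime) (liesOverPrime_padicPlace q)
  let φ : ↥(Dq q) := ⟨φ0, hφ0.mem_decompositionSubgroup⟩
  have hφ : (padicPlace q).IsFrobeniusAt (φ : GQ) q := hφ0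
  set T := frobSubOne q A φ with hT
  -- the map `Z0 → N / T N`
  set Ψ : ↥(Z0 q A) →ₗ[k] (↥(invI q A) ⧸ LinearMap.range T) :=
    (LinearMap.range T).mkQ ∘ₗ evN q A φ with hΨ
  -- the map `Z0 → Z1unr / B1`
  set B' := (B1 (Dq q) A).comap (Z1unr q A).subtype with hB'
  set g : ↥(Z0 q A) →ₗ[k] (↥(Z1unr q A) ⧸ B') :=
    B'.mkQ ∘ₗ Submodule.inclusion (Z0_le_Z1unr q A) with hg
  -- `ker Ψ ≤ ker g`
  have hker : LinearMap.ker Ψ ≤ LinearMap.ker g := by
    intro c hc
    rw [LinearMap.mem_ker, hΨ, LinearMap.comp_apply, Submodule.mkQ_apply,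
      Submodule.Quotient.mk_eq_zero, LinearMap.mem_range] at hc
    obtain ⟨n, hn⟩ := hc
    have hn' : c.1 φ = A.ρ (φ : GQ) (n : A) - n := by
      rw [← evN_apply, ← hn, frobSubOne_apply]
    -- `c - d n` vanishes
    have h1 : c.1 - dfun q A (n : A) ∈ Z0 q A :=
      sub_dfun_mem_Z0 hsm c.2.1 (a := (n : A)) fun s hs => by
        rw [c.2.2 s hs, n.2 _ hs, sub_self]
    have h2 : c.1 - dfun q A (n : A) = 0 :=
      eq_zero_of_frob h1 φ hφ (by rw [Pi.sub_apply, dfun_apply, hn', sub_self])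
    rw [LinearMap.mem_ker, hg, LinearMap.comp_apply, Submodule.mkQ_apply,
      Submodule.Quotient.mk_eq_zero, hB', Submodule.mem_comap]
    change c.1 ∈ B1 (Dq q) A
    rw [sub_eq_zero.mp h2]
    exact dfun_mem_B1 hsm _
  -- `g` is onto
  have hgsurj : Function.Surjective g := by
    intro v
    obtain ⟨⟨c, hc⟩, rfl⟩ := Submodule.mkQ_surjective B' v
    obtain ⟨hc1, a, ha⟩ := hc
    refine ⟨⟨c - dfun q A a, sub_dfun_mem_Z0 hsm hc1 ha⟩, ?_⟩
    rw [hg, LinearMap.comp_apply, Submodule.mkQ_apply, Submodule.mkQ_apply, eq_comm,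
      Submodule.Quotient.eq, hB', Submodule.mem_comap]
    change c - (c - dfun q A a) ∈ B1 (Dq q) A
    rw [sub_sub_cancel]
    exact dfun_mem_B1 hsm a
  -- the induced surjection `Z0 / ker Ψ → Z1unr / B1`
  have hGsurj : Function.Surjective ((LinearMap.ker Ψ).liftQ g hker) := by
    intro v
    obtain ⟨c, rfl⟩ := hgsurj v
    exact ⟨Submodule.Quotient.mk c, Submodule.liftQ_apply _ _ _⟩
  -- finiteness
  have hfinN : Finite ↥(invI q A) := Finite.of_injective (fun n : ↥(invI q A) => (n : A))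
    Subtype.val_injective
  have hfinQ : Finite (↥(invI q A) ⧸ LinearMap.range T) :=
    Finite.of_surjective _ (Submodule.mkQ_surjective (LinearMap.range T))
  have hfinR : Finite ↥(LinearMap.range Ψ) :=
    Finite.of_injective (fun x : ↥(LinearMap.range Ψ) => (x : ↥(invI q A) ⧸ LinearMap.range T))
      Subtype.val_injective
  have hfinZ : Finite (↥(Z0 q A) ⧸ LinearMap.ker Ψ) :=
    Finite.of_equiv _ Ψ.quotKerEquivRange.symm.toEquiv
  -- the chain of inequalities
  calc Nat.card (↥(Z1unr q A) ⧸ B')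
      ≤ Nat.card (↥(Z0 q A) ⧸ LinearMap.ker Ψ) := Nat.card_le_card_of_surjective _ hGsurj
    _ = Nat.card ↥(LinearMap.range Ψ) := Nat.card_congr Ψ.quotKerEquivRange.toEquiv
    _ ≤ Nat.card (↥(invI q A) ⧸ LinearMap.range T) :=
        Nat.card_le_card_of_injective _ Subtype.val_injective
    _ = Nat.card ↥(LinearMap.ker T) := card_quot_range_eq_card_ker T
    _ ≤ Nat.card {a : A // ∀ g : ↥(Dq q), A.ρ (g : GQ) a = a} := by
        refine Nat.card_le_card_of_injective
          (fun n : ↥(LinearMap.ker T) => (⟨((n : ↥(invI q A)) : A), fun g =>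
            fixed_of_frob hsm (n : ↥(invI q A)).2 φ hφ (by
              have h1 : T (n : ↥(invI q A)) = 0 := n.2
              have h2 := congrArg (fun x : ↥(invI q A) => (x : A)) h1
              simp only [hT, frobSubOne_apply] at h2
              exact sub_eq_zero.mp h2) g⟩ : {a : A // ∀ g : ↥(Dq q), A.ρ (g : GQ) a = a})) ?_
        intro n n' h
        have h1 := congrArg (fun x : {a : A // ∀ g : ↥(Dq q), A.ρ (g : GQ) a = a} => (x : A)) h
        exact Subtype.ext (Subtype.ext h1)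

end Fermat.Agent.S56.Unip.Unramified
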