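import Mathlib
import Fermat.Agent.S56.Coh.CocDefs
import Fermat.Agent.S56.Coh.Lemmas
import Fermat.Agent.S56.Unip.TameCyclic
import Fermat.Agent.S56.Unip.Unipotent2x2
import Fermat.Agent.S56.Unip.TraceBridge
import Fermat.Agent.S56.Unip.Unramified
import Fermat.Agent.CFT.LocalBridge.Conjugacy
import Fermat.Prelude.Def_GaloisRep_ResidualEquiv

/-!
# PROJECT T (S56), block (a4) `S56/Unip`, file [U-M]: the upper bound at the primes of `Smin ∖ {p}`

For `q ≠ p` a prime at which `rbar` is ramified (this is `hmin` of S56 at `q ∈ Smin`):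

  `card (LcOf rbar (Punip p q) q / B1 (Dq q) M) ≤ card H⁰(D_q, M)`,   `M = ad⁰ rbar = Mrep rbar`,

in the unconditional export shape of the upper-bound blocks (no deformation ring).

Chain (helper17 #3928): for a matrix lift `L` to `k[ε]`, unipotent on inertia at `q`:
* `exists_generator` : `L.r` restricted to `I_q` takes its values in the powers of one `L.r τ`
  (`TameCyclic.exists_generator_of_exponent`; exponent `p` by `TraceBridge`);
* `rbar τ ≠ 1` (else `rbar` is unramified at `q`), so `[U-A]` gives a trace-free `X` with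
  `cocOf L τ = τ X - X`;
* the corrected cocycle `cocOf L - dX` vanishes at `τ`, hence at the powers of `τ`
  (`cocycle_zpow_eq_zero`), hence on `I_q`: `resFun_cocOf_mem_Z1unr`;
* `LcOf_unip_le_Z1unr`, then `Unramified.card_Z1unr_quot_le` and `finite_Z1unr_quot`:
  `card_LcOf_unip_le`; with the Prelude's ramification hypothesis: `card_LcOf_unip_le_of_isEquiv`.
-/

set_option autoImplicit false

noncomputable section

namespace Fermat.Agent.S56.Unip.Main

open Fermat.Agent.CFT.LC Fermat.Agent.CFT.Bridge Fermat.Agent.CFT.LocalBridge Fermat.Agent.S56.Coh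
open Fermat.Agent.S56.Coh.CocDefs
open Fermat.Agent.S53.Dictionary hiding GQ
open Fermat.Agent.S53.TangentBound
open Fermat.Agent.S56.Unip.TameCyclic Fermat.Agent.S56.Unip.Unipotent2x2
  Fermat.Agent.S56.Unip.TraceBridge
open Matrix

/-- `Lc / (B1 ∩ Lc)` for a subspace `Lc` of functions on `D_q`, stated for a GENERIC coefficient
module `A` so that the quotient instances are elaborated once and for all (for `A = Mrep rbar` the
surface syntax `↥Lc ⧸ (B1 (Dq q) A).comap Lc.subtype` does not elaborate; this abbreviation unfolds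
to exactly that term; same device and same body as `S56.Ord.Main.LocQuot` of block (a2)). -/
abbrev LocQuot {k : Type} [CommRing k] (q : ℕ) [Fact q.Prime] (A : Rep.{0} k GQ)
    (Lc : Submodule k (↥(Dq q) → resRep (Dq q) A)) : Type :=
  ↥Lc ⧸ (B1 (Dq q) A).comap Lc.subtype

variable {k : Type} [Field k] {rbar : GQ →* GL (Fin 2) k}

/-- the square of the maximal ideal of `k[ε]` is zero -/
theorem maximalIdeal_sq_eq_bot : IsLocalRing.maximalIdeal (DualNumber k) ^ 2 = ⊥ := by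
  rw [eq_bot_iff, pow_two, Ideal.mul_le]
  intro x hx y hy
  rw [mem_maximalIdeal_iff] at hx hy
  rw [Ideal.mem_bot]
  apply TrivSqZeroExt.ext
  · simp [hx]
  · simp [hx, hy]

/-- a matrix lift factors through a finite level -/
theorem factors_toHomUnits (L : MatLift rbar) :
    GaloisFactorsThroughFiniteLevel L.r.toHomUnits := by
  obtain ⟨F, hF, h1⟩ := L.cont 2
  refine ⟨F, hF, fun σ hσ => ?_⟩
  apply Units.ext
  rw [MonoidHom.coe_toHomUnits, Units.val_one]
  refine Matrix.ext fun i j => ?_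
  have h3 := h1 σ hσ i j
  rw [maximalIdeal_sq_eq_bot, Ideal.mem_bot, Matrix.sub_apply, sub_eq_zero] at h3
  exact h3

/-- **Step 1 (U-T applied)**: on the inertia group at `q ≠ p` a lift which is unipotent on inertia
takes its values in the powers of one element. -/
theorem exists_generator (L : MatLift rbar) (q : ℕ) [Fact q.Prime]
    (hU : (ofMat L.r L.cont).IsUnipotentOnInertiaAt q) {p : ℕ} (hp : p.Prime) (hpq : p ≠ q)
    [CharP k p] :
    ∃ τ ∈ Iq q, ∀ σ ∈ Iq q, ∃ m : ℕ, L.r σ = L.r τ ^ m := by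
  obtain ⟨τ, hτ, h⟩ := exists_generator_of_exponent (Fact.out : q.Prime) (padicPlace q)
    (liesOverPrime_padicPlace q) hp hpq L.r.toHomUnits (factors_toHomUnits L) (fun σ hσ => by
      apply Units.ext
      rw [Units.val_pow_eq_pow_val, MonoidHom.coe_toHomUnits, Units.val_one]
      exact pow_eq_one_of_isUnipotentOnInertiaAt L.r L.cont q hU p
        (natCast_dualNumber_eq_zero p) (padicPlace q) (liesOverPrime_padicPlace q) σ hσ)
  refine ⟨τ, hτ, fun σ hσ => ?_⟩
  obtain ⟨m, hm⟩ := h σ hσ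
  refine ⟨m, ?_⟩
  have := congrArg Units.val hm
  rwa [Units.val_pow_eq_pow_val, MonoidHom.coe_toHomUnits, MonoidHom.coe_toHomUnits] at this

/-- unfolding of `cocMat` (stated here so that no equation lemma of `cocMat` is generated) -/
theorem cocMat_def (L : MatLift rbar) (σ : GQ) :
    cocMat L σ = msnd (L.r σ) * (((rbar σ)⁻¹ : GL (Fin 2) k) : Matrix (Fin 2) (Fin 2) k) := rfl

/-- the cocycle identity of `cocMat` in matrix form -/
theorem cocMat_mul (L : MatLift rbar) (g h : GQ) :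
    cocMat L (g * h) = cocMat L g + (rbar g : Matrix (Fin 2) (Fin 2) k) * cocMat L h *
      ((rbar g)⁻¹ : GL (Fin 2) k) := by
  have h1 := congrArg (fun x : sl2 k => (x : Matrix (Fin 2) (Fin 2) k)) (cocOf_mul L g h)
  simp only [Submodule.coe_add] at h1
  rw [add_comm]
  exact h1

/-- **Steps 2–7**: the cocycle of a lift which is unipotent on inertia at `q ≠ p`, `rbar` ramified
at `q`, is unramified at `q`. -/
theorem resFun_cocOf_mem_Z1unr (h2 : (2 : k) ≠ 0) (L : MatLift rbar) (q : ℕ) [Fact q.Prime]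
    (hU : (ofMat L.r L.cont).IsUnipotentOnInertiaAt q) {p : ℕ} (hp : p.Prime) (hpq : p ≠ q)
    [CharP k p] (hram : ∃ s ∈ Iq q, rbar s ≠ 1) :
    resFun (Dq q) (cocOf L) ∈ Z1unr q (Mrep rbar) := by
  obtain ⟨τ, hτ, hgen⟩ := exists_generator L q hU hp hpq
  -- `rbar τ ≠ 1`
  have hu1 : rbar τ ≠ 1 := by
    intro h
    obtain ⟨s, hs, hs1⟩ := hram
    apply hs1
    obtain ⟨m, hm⟩ := hgen s hs
    apply Units.ext
    rw [← L.fst_eq s, hm, ← map_pow, L.fst_eq, map_pow, h, one_pow]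
  obtain ⟨X, hX0, hX⟩ := exists_conj_of_isUnipotentOnInertiaAt h2 L.r L.cont q hU (padicPlace q)
    (liesOverPrime_padicPlace q) τ hτ (rbar τ) (L.fst_eq τ) hu1
  -- the coboundary of `X` and the corrected cocycle
  obtain ⟨b, hbdef⟩ : ∃ b : GQ → Matrix (Fin 2) (Fin 2) k, ∀ σ, b σ =
      (rbar σ : Matrix (Fin 2) (Fin 2) k) * X * ((rbar σ)⁻¹ : GL (Fin 2) k) - X := ⟨_, fun _ => rfl⟩
  obtain ⟨c', hc'def⟩ : ∃ c' : GQ → Matrix (Fin 2) (Fin 2) k, ∀ σ, c' σ = cocMat L σ - b σ :=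
    ⟨_, fun _ => rfl⟩
  have hb : ∀ g h, b (g * h) = b g + (rbar g : Matrix (Fin 2) (Fin 2) k) * b h *
      ((rbar g)⁻¹ : GL (Fin 2) k) := by
    intro g h
    rw [hbdef, hbdef, hbdef, map_mul, _root_.mul_inv_rev, Units.val_mul, Units.val_mul,
      Matrix.mul_sub, Matrix.sub_mul]
    have h4 : (rbar g : Matrix (Fin 2) (Fin 2) k) * X * ((rbar g)⁻¹ : GL (Fin 2) k).val -
        X + ((rbar g : Matrix (Fin 2) (Fin 2) k) * ((rbar h : Matrix (Fin 2) (Fin 2) k) * X *
          ((rbar h)⁻¹ : GL (Fin 2) k).val) * ((rbar g)⁻¹ : GL (Fin 2) k).val -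
        (rbar g : Matrix (Fin 2) (Fin 2) k) * X * ((rbar g)⁻¹ : GL (Fin 2) k).val) =
        (rbar g : Matrix (Fin 2) (Fin 2) k) * ((rbar h : Matrix (Fin 2) (Fin 2) k) * X *
          ((rbar h)⁻¹ : GL (Fin 2) k).val) * ((rbar g)⁻¹ : GL (Fin 2) k).val - X := by abel
    rw [h4]
    simp only [Matrix.mul_assoc]
  have hc' : ∀ g h, c' (g * h) = c' g + (rbar g : Matrix (Fin 2) (Fin 2) k) * c' h *
      ((rbar g)⁻¹ : GL (Fin 2) k) := by
    intro g h
    rw [hc'def, hc'def, hc'def, cocMat_mul, hb, Matrix.mul_sub, Matrix.sub_mul]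
    abel
  have hτ0 : c' τ = 0 := by
    rw [hc'def, hbdef, cocMat_def, hX, sub_self]
  refine ⟨resFun_mem_Z1 _ (cocOf_mem_Z1g L), (⟨X, mem_sl2.2 hX0⟩ : sl2 k), fun s hs => ?_⟩
  obtain ⟨m, hm⟩ := hgen s hs
  have hr : L.r s = L.r (τ ^ m) := by rw [hm, map_pow]
  have hrb : rbar s = rbar (τ ^ m) := Units.ext (by rw [← L.fst_eq, hr, L.fst_eq])
  have h1 : c' s = c' (τ ^ m) := by
    rw [hc'def, hc'def, hbdef, hbdef, cocMat_def, cocMat_def, hr, hrb]
  have h0 : c' (s : GQ) = 0 := by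
    rw [h1, ← zpow_natCast]
    exact cocycle_zpow_eq_zero rbar c' hc' τ hτ0 (m : ℤ)
  apply Subtype.ext
  have h3 : cocMat L s = b s := by
    rw [hc'def] at h0
    exact sub_eq_zero.mp h0
  rw [hbdef] at h3
  exact h3

/-- **Step 8**: the local condition `Punip` at `q ≠ p` consists of unramified cocycles, when
`rbar` is ramified at `q`. -/
theorem LcOf_unip_le_Z1unr (h2 : (2 : k) ≠ 0) {p : ℕ} (hp : p.Prime) (q : ℕ) [Fact q.Prime]
    (hpq : p ≠ q) [CharP k p] (hram : ∃ s ∈ Iq q, rbar s ≠ 1) :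
    LcOf rbar (Punip p q) q ≤ Z1unr q (Mrep rbar) :=
  LcOf_le q _ (B1_le_Z1unr q) fun L hL => resFun_cocOf_mem_Z1unr h2 L q hL.2 hp hpq hram

open Fermat.Agent.S56.Unip.Unramified in
/-- finiteness of `Z1unr / B1` for a finite smooth module (complement to
`Unramified.card_Z1unr_quot_le`, from the same pieces) -/
theorem finite_Z1unr_quot {k : Type} [CommRing k] (q : ℕ) [Fact q.Prime] (A : Rep.{0} k GQ)
    [Finite A] (hsm : ∀ a : A, ∃ U ∈ levelsAll.sets, ∀ s ∈ U, A.ρ s a = a) :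
    Finite (↥(Z1unr q A) ⧸ (B1 (Dq q) A).comap (Z1unr q A).subtype) := by
  obtain ⟨φ0, hφ0⟩ := Fermat.Agent.Lib.FrobeniusExists.exists_isFrobeniusAt_algebraicClosure
    (padicPlace q) (Fact.out : q.Prime) (liesOverPrime_padicPlace q)
  let φ : ↥(Dq q) := ⟨φ0, hφ0.mem_decompositionSubgroup⟩
  have hφ : (padicPlace q).IsFrobeniusAt (φ : GQ) q := hφ0
  have hinj : Function.Injective (fun c : ↥(Z0 q A) => (c.1 φ : A)) := by
    intro c c' h
    have h1 := eq_zero_of_frob (Submodule.sub_mem _ c.2 c'.2) φ hφ (by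
      rw [Pi.sub_apply]
      exact sub_eq_zero.mpr h)
    exact Subtype.ext (sub_eq_zero.mp h1)
  have hfin : Finite ↥(Z0 q A) := Finite.of_injective _ hinj
  refine Finite.of_surjective (fun c : ↥(Z0 q A) =>
    (Submodule.Quotient.mk (⟨c.1, Z0_le_Z1unr q A c.2⟩ : ↥(Z1unr q A)) :
      ↥(Z1unr q A) ⧸ (B1 (Dq q) A).comap (Z1unr q A).subtype)) ?_
  intro v
  obtain ⟨⟨c, hc⟩, rfl⟩ := Submodule.mkQ_surjective _ v
  obtain ⟨hc1, a, ha⟩ := hc
  refine ⟨⟨c - dfun q A a, sub_dfun_mem_Z0 hsm hc1 ha⟩, ?_⟩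
  rw [Submodule.mkQ_apply, Submodule.Quotient.eq, Submodule.mem_comap]
  change (c - dfun q A a) - c ∈ B1 (Dq q) A
  rw [sub_sub_cancel_left]
  exact Submodule.neg_mem _ (dfun_mem_B1 hsm a)

/-- `Mrep rbar` is smooth as soon as one matrix lift exists -/
theorem smooth_Mrep_of_matLift (L : MatLift rbar) :
    ∀ a : Mrep rbar, ∃ U ∈ levelsAll.sets, ∀ s ∈ U, (Mrep rbar).ρ s a = a := by
  obtain ⟨U, hU, hU1⟩ := exists_level L
  intro a
  refine ⟨U, hU, fun s hs => ?_⟩
  apply Subtype.ext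
  rw [Mrep_ρ_coe, rbar_eq_one_of_eq_one L (hU1 s hs), inv_one, Units.val_one, Matrix.one_mul,
    Matrix.mul_one]

open Fermat.Agent.S56.Unip.Unramified in
/-- **[U-M], the export of block (a4)**: at a prime `q ≠ p` where `rbar` is ramified, the local
condition "unipotent on inertia, determinant cyclotomic" satisfies
`card (L_q / B1) ≤ card H⁰(D_q, ad⁰)`. Unconditional: no deformation ring is assumed. -/
theorem card_LcOf_unip_le [Finite k] (h2 : (2 : k) ≠ 0) {p : ℕ} (hp : p.Prime) (q : ℕ)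
    [Fact q.Prime] (hpq : p ≠ q) [CharP k p] (hram : ∃ s ∈ Iq q, rbar s ≠ 1) :
    Finite (LocQuot q (Mrep rbar) (LcOf rbar (Punip p q) q)) ∧
      Nat.card (LocQuot q (Mrep rbar) (LcOf rbar (Punip p q) q)) ≤
        Nat.card {m : Mrep rbar // ∀ g : ↥(Dq q), (Mrep rbar).ρ (g : GQ) m = m} := by
  have hfinM : Finite (Mrep rbar) := inferInstanceAs (Finite (sl2 k))
  by_cases hex : ∃ L : MatLift rbar, Punip p q (ofMat L.r L.cont)
  · obtain ⟨L0, -⟩ := hex
    have hsm := smooth_Mrep_of_matLift L0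
    have hfinU := finite_Z1unr_quot q (Mrep rbar) hsm
    obtain ⟨hfin, hle⟩ := card_quot_le_of_le (B1 (Dq q) (Mrep rbar)) (LcOf rbar (Punip p q) q)
      (Z1unr q (Mrep rbar)) (LcOf_unip_le_Z1unr h2 hp q hpq hram)
    exact ⟨hfin, hle.trans (card_Z1unr_quot_le q (Mrep rbar) hsm)⟩
  · have hle : LcOf rbar (Punip p q) q ≤ B1 (Dq q) (Mrep rbar) :=
      LcOf_le q _ le_rfl fun L hL => (hex ⟨L, hL⟩).elim
    have htop : (B1 (Dq q) (Mrep rbar)).comap (LcOf rbar (Punip p q) q).subtype = ⊤ :=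
      Submodule.comap_subtype_eq_top.2 hle
    have hsub : Subsingleton (LocQuot q (Mrep rbar) (LcOf rbar (Punip p q) q)) :=
      Submodule.Quotient.subsingleton_iff.2 htop
    have hfin : Finite (LocQuot q (Mrep rbar) (LcOf rbar (Punip p q) q)) :=
      Finite.of_subsingleton
    refine ⟨hfin, ?_⟩
    have h1 : Nat.card (LocQuot q (Mrep rbar) (LcOf rbar (Punip p q) q)) ≤ 1 :=
      Finite.card_le_one_iff_subsingleton.2 hsub
    have hne : Nonempty {m : Mrep rbar // ∀ g : ↥(Dq q), (Mrep rbar).ρ (g : GQ) m = m} :=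
      ⟨⟨0, fun g => map_zero _⟩⟩
    have hfinF : Finite {m : Mrep rbar // ∀ g : ↥(Dq q), (Mrep rbar).ρ (g : GQ) m = m} :=
      Subtype.finite
    exact h1.trans Nat.card_pos

/-! ### the ramification hypothesis, from the Prelude's shape -/

/-- a non-trivial inertia element at SOME place over `q` gives one at the fixed place -/
theorem exists_mem_Iq_ne_one (q : ℕ) [Fact q.Prime]
    (h : ∃ A : ValuationSubring (AlgebraicClosure ℚ), A.LiesOverPrime q ∧
      ∃ σ ∈ A.inertiaSubgroupIn ℚ, rbar σ ≠ 1) : ∃ s ∈ Iq q, rbar s ≠ 1 := by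
  obtain ⟨A, hA, σ, hσ, hne⟩ := h
  obtain ⟨g, rfl⟩ := exists_smul_padicPlace_eq q hA
  rw [mem_inertiaSubgroupIn_smul_iff] at hσ
  refine ⟨g⁻¹ * σ * g, hσ, fun h1 => hne ?_⟩
  rw [map_mul, map_mul, map_inv] at h1
  have h2 : rbar σ = rbar g * ((rbar g)⁻¹ * rbar σ * rbar g) * (rbar g)⁻¹ := by group
  rw [h2, h1, mul_one, mul_inv_cancel]

/-- `rbar` in matrix-monoid form (the shape of `S53.Dictionary.resOfMat`) -/
abbrev rbarM (rbar : GQ →* GL (Fin 2) k) : GQ →* Mat k :=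
  (Units.coeHom (Matrix (Fin 2) (Fin 2) k)).comp rbar

/-- the Prelude's `¬ IsUnramifiedAt q` for the residual representation of `rbar` -/
theorem exists_mem_Iq_ne_one_of_not_isUnramifiedAt (q : ℕ) [Fact q.Prime]
    (hrbar : GaloisFactorsThroughFiniteLevel (rbarM rbar))
    (h : ¬ (resOfMat (rbarM rbar) hrbar).IsUnramifiedAt q) : ∃ s ∈ Iq q, rbar s ≠ 1 := by
  apply exists_mem_Iq_ne_one
  unfold ResidualGaloisRep.IsUnramifiedAt at h
  push Not at h
  obtain ⟨A, hA, σ, hσ, hne⟩ := h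
  refine ⟨A, hA, σ, hσ, fun h1 => hne ?_⟩
  change (toEnd k) (rbarM rbar σ) = 1
  rw [MonoidHom.comp_apply, h1, map_one, map_one]

/-- the same for any residual representation equivalent to the one of `rbar` -/
theorem exists_mem_Iq_ne_one_of_isEquiv (q : ℕ) [Fact q.Prime] (ρbar : ResidualGaloisRep k)
    (hrbar : GaloisFactorsThroughFiniteLevel (rbarM rbar))
    (e0 : ρbar.IsEquiv (resOfMat (rbarM rbar) hrbar)) (h : ¬ ρbar.IsUnramifiedAt q) :
    ∃ s ∈ Iq q, rbar s ≠ 1 := by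
  apply exists_mem_Iq_ne_one_of_not_isUnramifiedAt q hrbar
  intro h1
  apply h
  obtain ⟨e⟩ := e0
  intro A hA σ hσ
  have h2 := h1 A hA σ hσ
  refine LinearMap.ext fun x => ?_
  apply e.toLinearEquiv.injective
  rw [e.map_apply, h2, Module.End.one_apply, Module.End.one_apply]

/-- **[U-M], final form for the integrator**: the hypotheses are the ones of S56 (`hmin` at
`q ∈ Smin`, `q ≠ p`), through a matrix form `rbar` of `ρbar`. -/
theorem card_LcOf_unip_le_of_isEquiv [Finite k] (h2 : (2 : k) ≠ 0) {p : ℕ} (hp : p.Prime) (q : ℕ)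
    [Fact q.Prime] (hpq : p ≠ q) [CharP k p] (ρbar : ResidualGaloisRep k)
    (hrbar : GaloisFactorsThroughFiniteLevel (rbarM rbar))
    (e0 : ρbar.IsEquiv (resOfMat (rbarM rbar) hrbar)) (hram : ¬ ρbar.IsUnramifiedAt q) :
    Finite (LocQuot q (Mrep rbar) (LcOf rbar (Punip p q) q)) ∧
      Nat.card (LocQuot q (Mrep rbar) (LcOf rbar (Punip p q) q)) ≤
        Nat.card {m : Mrep rbar // ∀ g : ↥(Dq q), (Mrep rbar).ρ (g : GQ) m = m} :=
  card_LcOf_unip_le h2 hp q hpq (exists_mem_Iq_ne_one_of_isEquiv q ρbar hrbar e0 hram)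

end Fermat.Agent.S56.Unip.Main
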